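/-
S34 / Program B', leaf L5 = (M1) of the skeleton (helper61): the `τ`-stable descent.

* `exists_normal_numberField` : every finite subset of `ℚ̄` lies in a number field `K₀ ⊆ ℚ̄`
  normal over `ℚ`; `map_mem_of_normal` : such a `K₀` is stable under `Gal(ℚ̄/ℚ)`;
  `apply_div_self_mem` : the decomposition group of `A` preserves the valuation of `A`.
* `ratForm N K₀` : the `K₀`-form `K₀ · F_{N,ℚ}` of `F_N = ℚ̄(X₀(N))` (ANY level `N`);
  `ratForm_mono`, `exists_finset_forall_mem_ratForm` (every finite subset of `F_N` lies in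
  `ratForm N K₀` for all large `K₀`), `ratForm_closure_eq_top` (`F_N = ratForm N K₀ · ℚ̄`),
  `eq_ratForm_of_span` (at a good level it is the `K₀(x)`-span of a rational basis `θ`: the `F₀`
  of the landed `H78.goodPair_over`), `heckeAlphaBar_mem_ratForm`, `heckeBetaBar_mem_ratForm`.
* `tauForm N K₀ σ` : the restriction to `ratForm N K₀` of the Galois action of `σ` (`K₀` normal),
  a ring automorphism; `tauForm_mem_chart_iff`, `tauForm_mem_chart_inv_iff` (it preserves the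
  charts of a rational base function), `tauForm_unif` (`τ ϖ = e ϖ`, `e` a unit of `A ∩ K₀`).
* Node level `M * q` (with `H64.TwoGauss M q hqM A hA O₁ w`): `gaussTwo` (`O₂ = w⁻¹ O₁`),
  `w_mem_ratForm` (the Atkin–Lehner involution preserves the `K₀`-form), `tauForm_twoGauss`
  (`τ` preserves `O₁ ∩ F₀`, `O₂ ∩ F₀` and is trivial on their residue fields, for `σ` in the
  inertia group), `tauForm_val` (`τ` preserves both valuations).
-/
import Fermat.Agent.S34.H61.Equivariant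
import Fermat.Agent.S34.H19.RatBasis
import Fermat.Agent.S34.H64.TwoGaussDefs
import Fermat.Agent.S05.H63.Inertia

set_option autoImplicit false

open IntermediateField Polynomial ModularCurve AlgebraicCurve

noncomputable section

namespace Fermat.Agent.S34.H61

open Fermat.Agent.S18 Fermat.Agent.S18.H74 Fermat.Agent.S34.H19

/-- `ℚ̄ / ℚ` is algebraic (for the default `ℚ`-algebra structure of a characteristic zero field). -/
theorem isAlgebraic_Kb : Algebra.IsAlgebraic ℚ Kb := AlgebraicClosure.isAlgebraic ℚ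

/-- `ℚ̄ / ℚ` is normal (for the default `ℚ`-algebra structure). -/
theorem normal_Kb : Normal ℚ Kb := by
  have h : (DivisionRing.toRatAlgebra : Algebra ℚ (AlgebraicClosure ℚ)) =
      AlgebraicClosure.instAlgebra ℚ := Subsingleton.elim _ _
  rw [h]
  exact @IsAlgClosure.normal ℚ (AlgebraicClosure ℚ) _ _ (AlgebraicClosure.instAlgebra ℚ)
    inferInstance

attribute [local instance] isAlgebraic_Kb normal_Kb

/-- Every finite subset of `ℚ̄` lies in a number field normal over `ℚ`. -/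
theorem exists_normal_numberField (Z : Finset Kb) :
    ∃ K₀ : IntermediateField ℚ Kb, FiniteDimensional ℚ K₀ ∧ Normal ℚ K₀ ∧ ∀ z ∈ Z, z ∈ K₀ := by
  classical
  set K : IntermediateField ℚ Kb := IntermediateField.adjoin ℚ (Z : Set Kb) with hK
  have hfd : FiniteDimensional ℚ K :=
    IntermediateField.finiteDimensional_adjoin (fun z _ => Algebra.IsIntegral.isIntegral z)
  have hn : Normal ℚ ↥(normalClosure ℚ K Kb) :=
    normalClosure.normal (F := ℚ) (K := K) (L := Kb)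
  refine ⟨normalClosure ℚ K Kb, inferInstance, hn, fun z hz => ?_⟩
  exact (IntermediateField.le_normalClosure K) (IntermediateField.subset_adjoin ℚ _ hz)

/-- A normal subfield of `ℚ̄` is stable under every automorphism. -/
theorem map_mem_of_normal (K₀ : IntermediateField ℚ Kb) [hK₀ : Normal ℚ K₀] (σ : Kb ≃ₐ[ℚ] Kb)
    {c : Kb} (hc : c ∈ K₀) : σ c ∈ K₀ := by
  have h := (IntermediateField.normal_iff_forall_map_le'.mp hK₀) σ
  exact h ⟨c, hc, rfl⟩

/-- Some positive power of `σ` fixes a given element of `ℚ̄`. -/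
theorem exists_pow_apply_eq (σ : Kb ≃ₐ[ℚ] Kb) (c : Kb) : ∃ n : ℕ, 0 < n ∧ (σ ^ n) c = c := by
  classical
  have hp : minpoly ℚ c ≠ 0 := minpoly.ne_zero (Algebra.IsIntegral.isIntegral c)
  have hmem : ∀ i : ℕ, (σ ^ i) c ∈ (minpoly ℚ c).rootSet Kb := by
    intro i
    rw [Polynomial.mem_rootSet_of_ne hp]
    have h := Polynomial.aeval_algHom_apply ((σ ^ i : Kb ≃ₐ[ℚ] Kb) : Kb →ₐ[ℚ] Kb) c (minpoly ℚ c)
    rw [minpoly.aeval, map_zero] at h
    exact h
  obtain ⟨i, j, hij, heq⟩ := Finite.exists_ne_map_eq_of_infinite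
    (fun i : ℕ => (⟨(σ ^ i) c, hmem i⟩ : (minpoly ℚ c).rootSet Kb))
  have heq' : (σ ^ i) c = (σ ^ j) c := congrArg Subtype.val heq
  have key : ∀ a b : ℕ, a < b → (σ ^ a) c = (σ ^ b) c → ∃ n : ℕ, 0 < n ∧ (σ ^ n) c = c := by
    intro a b hab h
    refine ⟨b - a, by omega, ?_⟩
    have h1 : σ ^ b = σ ^ a * σ ^ (b - a) := by rw [← pow_add]; congr 1; omega
    rw [h1, AlgEquiv.mul_apply] at h
    exact ((σ ^ a).injective h).symm
  rcases lt_or_gt_of_ne hij with h | h
  · exact key i j h heq'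
  · exact key j i h heq'.symm

/-- The decomposition group preserves the valuation: `σ c / c` is integral. -/
theorem apply_div_self_mem (A : ValuationSubring Kb) {σ : Kb ≃ₐ[ℚ] Kb}
    (hσ : σ ∈ A.decompositionSubgroup ℚ) {c : Kb} (hc : c ≠ 0) : σ c / c ∈ A := by
  by_contra hmem
  have hstep : ∀ x : Kb, x ∉ A → σ x ∉ A := fun x hx h =>
    hx ((Fermat.Agent.S05.H63.apply_mem_iff_of_mem_decompositionSubgroup hσ).mp h)
  have hmul : ∀ x y : Kb, x ∉ A → y ∉ A → x * y ∉ A := by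
    intro x y hx hy
    rw [← ValuationSubring.valuation_le_one_iff, not_le] at hx hy ⊢
    rw [map_mul]
    exact one_lt_mul'' hx hy
  have hpow : ∀ n : ℕ, (σ ^ (n + 1)) c / c ∉ A := by
    intro n
    induction n with
    | zero => simpa using hmem
    | succ n ih =>
      have h1 : (σ ^ (n + 1 + 1)) c / c = σ ((σ ^ (n + 1)) c / c) * (σ c / c) := by
        rw [map_div₀, pow_succ' σ (n + 1), AlgEquiv.mul_apply]
        have hσc : σ c ≠ 0 := (map_ne_zero σ).mpr hc
        field_simp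
      rw [h1]
      exact hmul _ _ (hstep _ ih) hmem
  obtain ⟨n, hn, hfix⟩ := exists_pow_apply_eq σ c
  obtain ⟨k, rfl⟩ : ∃ k, n = k + 1 := ⟨n - 1, by omega⟩
  apply hpow k
  rw [hfix, div_self hc]
  exact A.one_mem

/-! ### The `K₀`-form of `F_N` -/

/-- The `K₀`-form `K₀ · F_{N,ℚ}` of `F_N`. -/
def ratForm (N : ℕ) (K₀ : IntermediateField ℚ Kb) : IntermediateField K₀ (FN N) :=
  IntermediateField.adjoin K₀ (Set.range (ratEmb N))

theorem ratEmb_mem_ratForm (N : ℕ) (K₀ : IntermediateField ℚ Kb)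
    (f : ↥(modularFunctionFieldFull N)) : ratEmb N f ∈ ratForm N K₀ :=
  IntermediateField.subset_adjoin K₀ _ ⟨f, rfl⟩

theorem algebraMap_mem_ratForm (N : ℕ) (K₀ : IntermediateField ℚ Kb) {c : Kb} (hc : c ∈ K₀) :
    algebraMap Kb (FN N) c ∈ ratForm N K₀ := by
  have h : algebraMap Kb (FN N) c = algebraMap K₀ (FN N) ⟨c, hc⟩ := rfl
  rw [h]
  exact (ratForm N K₀).algebraMap_mem _

theorem ratForm_mono (N : ℕ) {K00 K0 : IntermediateField ℚ Kb} (hle : K00 ≤ K0) {f : FN N}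
    (hf : f ∈ ratForm N K00) : f ∈ ratForm N K0 := by
  induction hf using IntermediateField.adjoin_induction with
  | mem y hy => exact IntermediateField.subset_adjoin K0 _ hy
  | algebraMap c => exact algebraMap_mem_ratForm N K0 (hle c.2)
  | add y z _ _ hy hz => exact add_mem hy hz
  | inv y _ hy => exact inv_mem hy
  | mul y z _ _ hy hz => exact mul_mem hy hz

/-- `F_N` is generated over `ℚ̄` by the rational functions. -/
theorem adjoin_range_ratEmb (N : ℕ) :
    IntermediateField.adjoin Kb (Set.range (ratEmb N)) = (⊤ : IntermediateField Kb (FN N)) := by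
  apply IntermediateField.map_injective (modularFunctionFieldBar N).val
  rw [IntermediateField.adjoin_map, ← AlgHom.fieldRange_eq_map, IntermediateField.fieldRange_val]
  have h : ⇑(modularFunctionFieldBar N).val '' Set.range (ratEmb N)
      = ⇑(coeffEmb Kb) '' (modularFunctionFieldFull N : Set (LaurentSeries ℚ)) := by
    ext y
    constructor
    · rintro ⟨_, ⟨g, rfl⟩, rfl⟩
      exact ⟨g, g.2, rfl⟩
    · rintro ⟨g, hg, rfl⟩
      exact ⟨ratEmb N ⟨g, hg⟩, ⟨⟨g, hg⟩, rfl⟩, rfl⟩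
  rw [h]
  rfl

/-- Every element of `F_N` lies in `ratForm N K₀` for all sufficiently large `K₀`. -/
theorem exists_finset_mem_ratForm (N : ℕ) (f : FN N) :
    ∃ Z : Finset Kb, ∀ K₀ : IntermediateField ℚ Kb, (∀ z ∈ Z, z ∈ K₀) → f ∈ ratForm N K₀ := by
  classical
  have hf : f ∈ IntermediateField.adjoin Kb (Set.range (ratEmb N)) := by
    rw [adjoin_range_ratEmb]
    trivial
  induction hf using IntermediateField.adjoin_induction with
  | mem y hy =>
    obtain ⟨g, rfl⟩ := hy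
    exact ⟨∅, fun K₀ _ => ratEmb_mem_ratForm N K₀ g⟩
  | algebraMap c =>
    exact ⟨{c}, fun K₀ h => algebraMap_mem_ratForm N K₀ (h c (Finset.mem_singleton_self c))⟩
  | add a b _ _ ha hb =>
    obtain ⟨Z₁, h₁⟩ := ha
    obtain ⟨Z₂, h₂⟩ := hb
    exact ⟨Z₁ ∪ Z₂, fun K₀ h => add_mem (h₁ K₀ fun z hz => h z (Finset.mem_union_left _ hz))
      (h₂ K₀ fun z hz => h z (Finset.mem_union_right _ hz))⟩
  | inv a _ ha =>
    obtain ⟨Z₁, h₁⟩ := ha
    exact ⟨Z₁, fun K₀ h => inv_mem (h₁ K₀ h)⟩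
  | mul a b _ _ ha hb =>
    obtain ⟨Z₁, h₁⟩ := ha
    obtain ⟨Z₂, h₂⟩ := hb
    exact ⟨Z₁ ∪ Z₂, fun K₀ h => mul_mem (h₁ K₀ fun z hz => h z (Finset.mem_union_left _ hz))
      (h₂ K₀ fun z hz => h z (Finset.mem_union_right _ hz))⟩

/-- Every finite subset of `F_N` lies in `ratForm N K₀` for all sufficiently large `K₀`. -/
theorem exists_finset_forall_mem_ratForm (N : ℕ) (T : Finset (FN N)) :
    ∃ Z : Finset Kb, ∀ K₀ : IntermediateField ℚ Kb, (∀ z ∈ Z, z ∈ K₀) →
      ∀ t ∈ T, t ∈ ratForm N K₀ := by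
  classical
  choose Zf hZf using exists_finset_mem_ratForm N
  exact ⟨T.biUnion Zf, fun K₀ h t ht =>
    hZf t K₀ (fun z hz => h z (Finset.mem_biUnion.mpr ⟨t, ht, hz⟩))⟩

/-- `F_N = ratForm N K₀ · ℚ̄` (the compositum hypothesis of
`H60.exists_ord_eq_one_of_closure_eq_top`). -/
theorem ratForm_closure_eq_top (N : ℕ) (K₀ : IntermediateField ℚ Kb) :
    Subfield.closure ((ratForm N K₀ : Set (FN N)) ∪ Set.range (algebraMap Kb (FN N))) = ⊤ := by
  rw [eq_top_iff]
  rintro f -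
  have hf : f ∈ IntermediateField.adjoin Kb (Set.range (ratEmb N)) := by
    rw [adjoin_range_ratEmb]
    trivial
  induction hf using IntermediateField.adjoin_induction with
  | mem y hy =>
    obtain ⟨g, rfl⟩ := hy
    exact Subfield.subset_closure (Or.inl (ratEmb_mem_ratForm N K₀ g))
  | algebraMap c => exact Subfield.subset_closure (Or.inr ⟨c, rfl⟩)
  | add a b _ _ ha hb => exact add_mem ha hb
  | inv a _ ha => exact inv_mem ha
  | mul a b _ _ ha hb => exact mul_mem ha hb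

/-- At a level with a rational basis `θ` (e.g. `H19.exists_rat_basis_top`), `ratForm N K₀` is the
`K₀(x)`-span of `θ`, i.e. the field `F₀` of `H78.goodPair_over`. -/
theorem eq_ratForm_of_span (N : ℕ) (K₀ : IntermediateField ℚ Kb) (x : FN N)
    (hx : x ∈ Set.range (ratEmb N)) {μ : ℕ} (θ : Fin μ → FN N)
    (hθ : ∀ i, θ i ∈ Set.range (ratEmb N))
    (hspan : ∀ f : ↥(modularFunctionFieldFull N),
      ratEmb N f ∈ Submodule.span K₀⟮x⟯ (Set.range θ))
    (F₀ : IntermediateField K₀ (FN N))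
    (hF₀ : ∀ f : FN N, f ∈ F₀ ↔ f ∈ Submodule.span K₀⟮x⟯ (Set.range θ)) :
    F₀ = ratForm N K₀ := by
  apply le_antisymm
  · intro f hf
    rw [hF₀] at hf
    obtain ⟨c, rfl⟩ := (Submodule.mem_span_range_iff_exists_fun K₀⟮x⟯).1 hf
    refine sum_mem fun i _ => ?_
    have h1 : c i • θ i = ((c i : K₀⟮x⟯) : FN N) * θ i := rfl
    rw [h1]
    refine mul_mem ?_ ?_
    · have hle : K₀⟮x⟯ ≤ ratForm N K₀ := by
        rw [IntermediateField.adjoin_simple_le_iff]
        obtain ⟨g, rfl⟩ := hx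
        exact ratEmb_mem_ratForm N K₀ g
      exact hle (c i).2
    · obtain ⟨g, hg⟩ := hθ i
      rw [← hg]
      exact ratEmb_mem_ratForm N K₀ g
  · rw [ratForm, IntermediateField.adjoin_le_iff]
    rintro _ ⟨g, rfl⟩
    exact (hF₀ _).2 (hspan g)

/-! ### The degeneracy maps -/

theorem coeffEmb_qExpand (n : ℕ) [NeZero n] (x : LaurentSeries ℚ) :
    coeffEmb Kb (qExpand ℚ n x) = qExpand Kb n (coeffEmb Kb x) := by
  ext k
  by_cases hk : (n : ℤ) ∣ k
  · obtain ⟨m, rfl⟩ := hk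
    rw [coeffEmb_coeff, qExpand_coeff_mul, qExpand_coeff_mul, coeffEmb_coeff]
  · rw [coeffEmb_coeff, qExpand_coeff_of_not_dvd n _ hk, qExpand_coeff_of_not_dvd n _ hk,
      map_zero]

theorem heckeAlphaBar_ratEmb (M q : ℕ) [NeZero M] [NeZero q]
    (g : ↥(modularFunctionFieldFull M)) :
    heckeAlphaBar Kb M q (ratEmb M g)
      = ratEmb (M * q) ⟨g, full_degeneracy_le (dvd_mul_right M q) g.2⟩ := by
  apply Subtype.ext
  rw [coe_heckeAlphaBar, coe_ratEmb, coe_ratEmb]

theorem heckeBetaBar_ratEmb (M q : ℕ) [NeZero M] [NeZero q]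
    (g : ↥(modularFunctionFieldFull M)) :
    heckeBetaBar Kb M q (ratEmb M g)
      = ratEmb (M * q) ⟨qExpand ℚ q (g : LaurentSeries ℚ),
          full_degeneracy_map_le (N := M) q ⟨g, g.2, rfl⟩⟩ := by
  apply Subtype.ext
  have h1 : ((heckeBetaBar Kb M q (ratEmb M g) : FN (M * q)) : LaurentSeries Kb)
      = qExpand Kb q ((ratEmb M g : FN M) : LaurentSeries Kb) := rfl
  rw [h1, coe_ratEmb, coe_ratEmb, coeffEmb_qExpand]

theorem heckeAlphaBar_mem_ratForm (M q : ℕ) [NeZero M] [NeZero q] (K₀ : IntermediateField ℚ Kb)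
    {f : FN M} (hf : f ∈ ratForm M K₀) : heckeAlphaBar Kb M q f ∈ ratForm (M * q) K₀ := by
  induction hf using IntermediateField.adjoin_induction with
  | mem y hy =>
    obtain ⟨g, rfl⟩ := hy
    rw [heckeAlphaBar_ratEmb]
    exact ratEmb_mem_ratForm _ _ _
  | algebraMap c =>
    have h : heckeAlphaBar Kb M q (algebraMap K₀ (FN M) c)
        = algebraMap Kb (FN (M * q)) (c : Kb) := (heckeAlphaBar Kb M q).commutes (c : Kb)
    rw [h]
    exact algebraMap_mem_ratForm _ K₀ c.2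
  | add y z _ _ hy hz => rw [map_add]; exact add_mem hy hz
  | inv y _ hy => rw [map_inv₀]; exact inv_mem hy
  | mul y z _ _ hy hz => rw [map_mul]; exact mul_mem hy hz

theorem heckeBetaBar_mem_ratForm (M q : ℕ) [NeZero M] [NeZero q] (K₀ : IntermediateField ℚ Kb)
    {f : FN M} (hf : f ∈ ratForm M K₀) : heckeBetaBar Kb M q f ∈ ratForm (M * q) K₀ := by
  induction hf using IntermediateField.adjoin_induction with
  | mem y hy =>
    obtain ⟨g, rfl⟩ := hy
    rw [heckeBetaBar_ratEmb]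
    exact ratEmb_mem_ratForm _ _ _
  | algebraMap c =>
    have h : heckeBetaBar Kb M q (algebraMap K₀ (FN M) c)
        = algebraMap Kb (FN (M * q)) (c : Kb) := (heckeBetaBar Kb M q).commutes (c : Kb)
    rw [h]
    exact algebraMap_mem_ratForm _ K₀ c.2
  | add y z _ _ hy hz => rw [map_add]; exact add_mem hy hz
  | inv y _ hy => rw [map_inv₀]; exact inv_mem hy
  | mul y z _ _ hy hz => rw [map_mul]; exact mul_mem hy hz


/-! ### The Galois action on the `K₀`-form -/

/-- The Galois action fixes the rational functions. -/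
theorem arithmeticRingAut_ratEmb (N : ℕ) (σ : Kb ≃ₐ[ℚ] Kb) (f : ↥(modularFunctionFieldFull N)) :
    arithmeticRingAut (modularFunctionFieldFull N) σ (ratEmb N f) = ratEmb N f := by
  apply Subtype.ext
  rw [coe_arithmeticRingAut_apply, coe_ratEmb, coeffMap_coeffEmb]

/-- The Galois action preserves the `K₀`-form, for `K₀` normal. -/
theorem arithmeticRingAut_mem_ratForm (N : ℕ) (K₀ : IntermediateField ℚ Kb) [Normal ℚ K₀]
    (σ : Kb ≃ₐ[ℚ] Kb) {f : FN N} (hf : f ∈ ratForm N K₀) :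
    arithmeticRingAut (modularFunctionFieldFull N) σ f ∈ ratForm N K₀ := by
  induction hf using IntermediateField.adjoin_induction with
  | mem y hy =>
    obtain ⟨g, rfl⟩ := hy
    rw [arithmeticRingAut_ratEmb]
    exact ratEmb_mem_ratForm N K₀ g
  | algebraMap c =>
    have h : arithmeticRingAut (modularFunctionFieldFull N) σ (algebraMap K₀ (FN N) c)
        = algebraMap Kb (FN N) (σ (c : Kb)) :=
      arithmeticRingAut_algebraMap (modularFunctionFieldFull N) σ (c : Kb)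
    rw [h]
    exact algebraMap_mem_ratForm N K₀ (map_mem_of_normal K₀ σ c.2)
  | add y z _ _ hy hz => rw [map_add]; exact add_mem hy hz
  | inv y _ hy => rw [map_inv₀]; exact inv_mem hy
  | mul y z _ _ hy hz => rw [map_mul]; exact mul_mem hy hz

/-- The restriction of the Galois action of `σ` to the `K₀`-form (`K₀` normal). -/
def tauForm (N : ℕ) (K₀ : IntermediateField ℚ Kb) [Normal ℚ K₀] (σ : Kb ≃ₐ[ℚ] Kb) :
    ↥(ratForm N K₀) ≃+* ↥(ratForm N K₀) where
  toFun f := ⟨arithmeticRingAut (modularFunctionFieldFull N) σ f,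
    arithmeticRingAut_mem_ratForm N K₀ σ f.2⟩
  invFun f := ⟨arithmeticRingAut (modularFunctionFieldFull N) σ.symm f,
    arithmeticRingAut_mem_ratForm N K₀ σ.symm f.2⟩
  left_inv f := Subtype.ext
    ((arithmeticRingAut (modularFunctionFieldFull N) σ).symm_apply_apply (f : FN N))
  right_inv f := Subtype.ext
    ((arithmeticRingAut (modularFunctionFieldFull N) σ).apply_symm_apply (f : FN N))
  map_mul' _ _ := Subtype.ext (map_mul _ _ _)
  map_add' _ _ := Subtype.ext (map_add _ _ _)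

@[simp] theorem coe_tauForm (N : ℕ) (K₀ : IntermediateField ℚ Kb) [Normal ℚ K₀]
    (σ : Kb ≃ₐ[ℚ] Kb) (f : ↥(ratForm N K₀)) :
    ((tauForm N K₀ σ f : ↥(ratForm N K₀)) : FN N)
      = arithmeticRingAut (modularFunctionFieldFull N) σ (f : FN N) := rfl

theorem tauForm_symm_apply (N : ℕ) (K₀ : IntermediateField ℚ Kb) [Normal ℚ K₀]
    (σ : Kb ≃ₐ[ℚ] Kb) (f : ↥(ratForm N K₀)) :
    (tauForm N K₀ σ).symm f = tauForm N K₀ σ.symm f := rfl

theorem tauForm_symm_tauForm (N : ℕ) (K₀ : IntermediateField ℚ Kb) [Normal ℚ K₀]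
    (σ : Kb ≃ₐ[ℚ] Kb) (f : ↥(ratForm N K₀)) :
    tauForm N K₀ σ.symm (tauForm N K₀ σ f) = f :=
  (tauForm N K₀ σ).symm_apply_apply f

section Tau

variable (N : ℕ) (K₀ : IntermediateField ℚ Kb) [Normal ℚ K₀] (A : ValuationSubring Kb)
  (σ : Kb ≃ₐ[ℚ] Kb)

/-- `τ` maps the chart of a base function fixed by `σ` into itself. -/
theorem tauForm_mem_chart (hσ : σ ∈ A.decompositionSubgroup ℚ) (x₀ : ↥(ratForm N K₀))
    (hx₀ : arithmeticRingAut (modularFunctionFieldFull N) σ (x₀ : FN N) = x₀)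
    (y : ↥(ratForm N K₀)) :
    letI := H19.algComap (A.comap (algebraMap K₀ Kb)) (ratForm N K₀)
    y ∈ H19.chart (↥(A.comap (algebraMap K₀ Kb))) x₀ →
      tauForm N K₀ σ y ∈ H19.chart (↥(A.comap (algebraMap K₀ Kb))) x₀ := by
  let _ := H19.algComap (A.comap (algebraMap K₀ Kb)) (ratForm N K₀)
  intro hy
  have h := resF_mem_chart (σ : Kb →+* Kb)
    ((arithmeticRingAut (modularFunctionFieldFull N) σ : FN N ≃+* FN N) : FN N →+* FN N)
    (fun c => arithmeticRingAut_algebraMap (modularFunctionFieldFull N) σ c) K₀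
    (fun c hc => map_mem_of_normal K₀ σ hc) A
    (fun a ha => Fermat.Agent.S05.H63.apply_mem_of_mem_decompositionSubgroup hσ ha)
    (fun f hf => arithmeticRingAut_mem_ratForm N K₀ σ hf) x₀ hx₀ y hy
  exact h

/-- **(τ_mem)** `τ` preserves the chart of a rational base function. -/
theorem tauForm_mem_chart_iff (hσ : σ ∈ A.decompositionSubgroup ℚ) (x₀ : ↥(ratForm N K₀))
    (hx₀ : (x₀ : FN N) ∈ Set.range (ratEmb N)) (y : ↥(ratForm N K₀)) :
    letI := H19.algComap (A.comap (algebraMap K₀ Kb)) (ratForm N K₀)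
    tauForm N K₀ σ y ∈ H19.chart (↥(A.comap (algebraMap K₀ Kb))) x₀ ↔
      y ∈ H19.chart (↥(A.comap (algebraMap K₀ Kb))) x₀ := by
  let _ := H19.algComap (A.comap (algebraMap K₀ Kb)) (ratForm N K₀)
  obtain ⟨g, hg⟩ := hx₀
  have hfix : ∀ ρ : Kb ≃ₐ[ℚ] Kb,
      arithmeticRingAut (modularFunctionFieldFull N) ρ (x₀ : FN N) = x₀ := by
    intro ρ
    rw [← hg]
    exact arithmeticRingAut_ratEmb N ρ g
  constructor
  · intro h
    have hσ' : σ.symm ∈ A.decompositionSubgroup ℚ := (A.decompositionSubgroup ℚ).inv_mem hσ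
    have h2 := tauForm_mem_chart N K₀ A σ.symm hσ' x₀ (hfix σ.symm) _ h
    rwa [tauForm_symm_tauForm] at h2
  · exact tauForm_mem_chart N K₀ A σ hσ x₀ (hfix σ) y

/-- **(τ_mem)** for the chart at infinity: `x₀⁻¹` with `x₀` rational. -/
theorem tauForm_mem_chart_inv_iff (hσ : σ ∈ A.decompositionSubgroup ℚ) (x₀ : ↥(ratForm N K₀))
    (hx₀ : (x₀ : FN N) ∈ Set.range (ratEmb N)) (y : ↥(ratForm N K₀)) :
    letI := H19.algComap (A.comap (algebraMap K₀ Kb)) (ratForm N K₀)
    tauForm N K₀ σ y ∈ H19.chart (↥(A.comap (algebraMap K₀ Kb))) x₀⁻¹ ↔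
      y ∈ H19.chart (↥(A.comap (algebraMap K₀ Kb))) x₀⁻¹ := by
  refine tauForm_mem_chart_iff N K₀ A σ hσ x₀⁻¹ ?_ y
  obtain ⟨g, hg⟩ := hx₀
  refine ⟨g⁻¹, ?_⟩
  rw [map_inv₀, hg]
  rfl

/-- **(τ_unif)** `τ ϖ = e ϖ` with `e` a unit of `A₀ = A ∩ K₀`, for every nonzero `ϖ ∈ A₀`. -/
theorem tauForm_unif (hσ : σ ∈ A.decompositionSubgroup ℚ) (ϖ : ↥(A.comap (algebraMap K₀ Kb)))
    (hϖ : ϖ ≠ 0) :
    letI := H19.algComap (A.comap (algebraMap K₀ Kb)) (ratForm N K₀)
    ∃ e : (↥(A.comap (algebraMap K₀ Kb)))ˣ,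
      tauForm N K₀ σ (algebraMap ↥(A.comap (algebraMap K₀ Kb)) ↥(ratForm N K₀) ϖ)
        = algebraMap ↥(A.comap (algebraMap K₀ Kb)) ↥(ratForm N K₀) (e * ϖ) := by
  let _ := H19.algComap (A.comap (algebraMap K₀ Kb)) (ratForm N K₀)
  set c : Kb := ((ϖ : K₀) : Kb) with hc
  have hc0 : c ≠ 0 := by
    intro h
    apply hϖ
    apply Subtype.ext
    apply Subtype.ext
    exact h
  have hσc0 : σ c ≠ 0 := (map_ne_zero σ).mpr hc0
  have hσ' : σ.symm ∈ A.decompositionSubgroup ℚ := (A.decompositionSubgroup ℚ).inv_mem hσ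
  have h1 : σ c / c ∈ A := apply_div_self_mem A hσ hc0
  have h2 : c / σ c ∈ A := by
    have h := apply_div_self_mem A hσ' hσc0
    rwa [σ.symm_apply_apply] at h
  have hK1 : σ c / c ∈ K₀ := div_mem (map_mem_of_normal K₀ σ (ϖ : K₀).2) (ϖ : K₀).2
  have hK2 : c / σ c ∈ K₀ := div_mem (ϖ : K₀).2 (map_mem_of_normal K₀ σ (ϖ : K₀).2)
  let e₁ : ↥(A.comap (algebraMap K₀ Kb)) := ⟨⟨σ c / c, hK1⟩, h1⟩
  let e₂ : ↥(A.comap (algebraMap K₀ Kb)) := ⟨⟨c / σ c, hK2⟩, h2⟩
  have h12 : e₁ * e₂ = 1 := by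
    apply Subtype.ext
    apply Subtype.ext
    show σ c / c * (c / σ c) = 1
    field_simp
  have h21 : e₂ * e₁ = 1 := by rw [mul_comm, h12]
  refine ⟨⟨e₁, e₂, h12, h21⟩, ?_⟩
  apply Subtype.ext
  rw [coe_tauForm]
  have h3 : ((algebraMap ↥(A.comap (algebraMap K₀ Kb)) ↥(ratForm N K₀) ϖ : ↥(ratForm N K₀)) : FN N)
      = algebraMap Kb (FN N) c := rfl
  have h4 : ((algebraMap ↥(A.comap (algebraMap K₀ Kb)) ↥(ratForm N K₀)
      ((⟨e₁, e₂, h12, h21⟩ : (↥(A.comap (algebraMap K₀ Kb)))ˣ) * ϖ) : ↥(ratForm N K₀)) : FN N)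
      = algebraMap Kb (FN N) (σ c / c * c) := rfl
  rw [h3, h4, arithmeticRingAut_algebraMap, div_mul_cancel₀ _ hc0]

/-- `τ` preserves `O ∩ F₀` when the Galois action of `σ` preserves `O`. -/
theorem tauForm_mem_comap (O : ValuationSubring (FN N))
    (hO : ∀ f ∈ O, arithmeticRingAut (modularFunctionFieldFull N) σ f ∈ O)
    {y : ↥(ratForm N K₀)} (hy : y ∈ O.comap (algebraMap ↥(ratForm N K₀) (FN N))) :
    tauForm N K₀ σ y ∈ O.comap (algebraMap ↥(ratForm N K₀) (FN N)) :=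
  hO _ hy

/-- `τ` is trivial on the residue field of `O ∩ F₀` when `σ` is trivial on that of `O`. -/
theorem tauForm_sub_mem_nonunits_comap (O : ValuationSubring (FN N))
    (hO : ∀ f ∈ O, arithmeticRingAut (modularFunctionFieldFull N) σ f - f ∈ O.nonunits)
    {y : ↥(ratForm N K₀)} (hy : y ∈ O.comap (algebraMap ↥(ratForm N K₀) (FN N))) :
    tauForm N K₀ σ y - y ∈ (O.comap (algebraMap ↥(ratForm N K₀) (FN N))).nonunits := by
  have h1 := hO _ hy
  rw [ValuationSubring.mem_nonunits_iff_or] at h1 ⊢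
  rcases h1 with h | h
  · left
    apply Subtype.ext
    simpa using h
  · right
    intro hmem
    apply h
    have h3 : algebraMap ↥(ratForm N K₀) (FN N) ((tauForm N K₀ σ y - y)⁻¹) ∈ O := hmem
    simpa using h3

end Tau


/-! ### The node level: the two Gauss rings -/

section Node

open Fermat.Agent.S34.H64

variable (M q : ℕ) [NeZero M] [hqF : Fact q.Prime]

/-- The second Gauss ring `O₂ = w⁻¹ O₁`. -/
def gaussTwo (O₁ : ValuationSubring (FN (M * q))) (w : FN (M * q) ≃+* FN (M * q)) :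
    ValuationSubring (FN (M * q)) :=
  O₁.comap (w : FN (M * q) →+* FN (M * q))

omit [NeZero M] hqF in
theorem mem_gaussTwo {O₁ : ValuationSubring (FN (M * q))} {w : FN (M * q) ≃+* FN (M * q)}
    {f : FN (M * q)} : f ∈ gaussTwo M q O₁ w ↔ w f ∈ O₁ := Iff.rfl

omit [NeZero M] hqF in
theorem mem_nonunits_gaussTwo {O₁ : ValuationSubring (FN (M * q))}
    {w : FN (M * q) ≃+* FN (M * q)} {f : FN (M * q)} :
    f ∈ (gaussTwo M q O₁ w).nonunits ↔ w f ∈ O₁.nonunits := by
  rw [ValuationSubring.mem_nonunits_iff_or, ValuationSubring.mem_nonunits_iff_or, mem_gaussTwo,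
    map_inv₀]
  constructor
  · rintro (h | h)
    · left; rw [h, map_zero]
    · right; exact h
  · rintro (h | h)
    · left; exact (map_eq_zero_iff w w.injective).mp h
    · right; exact h

variable {M q}
variable {hqM : ¬ q ∣ M} {A : ValuationSubring Kb} {hA : A.LiesOverPrime q}
  {O₁ : ValuationSubring (FN (M * q))} {w : FN (M * q) ≃+* FN (M * q)}

omit [NeZero M] in
/-- The divisors of `M * q`. -/
theorem dvd_or_exists_of_dvd_mul {d : ℕ} (hd : d ∣ M * q) : d ∣ M ∨ ∃ d', d' ∣ M ∧ d = q * d' := by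
  have hq : q.Prime := hqF.out
  rcases (Nat.coprime_or_dvd_of_prime hq d) with h | h
  · left
    exact (Nat.Coprime.dvd_of_dvd_mul_right h.symm hd)
  · right
    obtain ⟨d', rfl⟩ := h
    refine ⟨d', ?_, rfl⟩
    rw [mul_comm M q] at hd
    exact (Nat.mul_dvd_mul_iff_left hq.pos).mp hd

/-- The Atkin–Lehner involution maps rational functions into the `K₀`-form. -/
theorem w_ratEmb_mem_ratForm (hTG : TwoGauss M q hqM A hA O₁ w) (K₀ : IntermediateField ℚ Kb)
    (g : ↥(modularFunctionFieldFull (M * q))) : w (ratEmb (M * q) g) ∈ ratForm (M * q) K₀ := by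
  have : NeZero q := ⟨hqF.out.ne_zero⟩
  obtain ⟨g, hg⟩ := g
  have hg' : g ∈ IntermediateField.adjoin ℚ (divisorExpansions (M * q)) := hg
  induction hg' using IntermediateField.adjoin_induction with
  | mem y hy =>
    obtain ⟨d, hne, hdvd, rfl⟩ := hy
    have := hne
    rcases dvd_or_exists_of_dvd_mul hdvd with hd | ⟨d', hd', rfl⟩
    · -- `j(q^d) = α (j(q^d))`
      have h1 : ratEmb (M * q) ⟨qExpand ℚ d jq, hg⟩
          = heckeAlphaBar Kb M q (ratEmb M ⟨qExpand ℚ d jq, jqd_mem_full M hd⟩) := by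
        rw [heckeAlphaBar_ratEmb]
      rw [h1, hTG.w_alpha]
      exact heckeBetaBar_mem_ratForm M q K₀ (ratEmb_mem_ratForm M K₀ _)
    · -- `j(q^{q d'}) = β (j(q^{d'}))`
      have : NeZero d' := ⟨fun h => by
        subst h
        exact (NeZero.ne (q * 0)) (mul_zero q)⟩
      have h1 : ratEmb (M * q) ⟨qExpand ℚ (q * d') jq, hg⟩
          = heckeBetaBar Kb M q (ratEmb M ⟨qExpand ℚ d' jq, jqd_mem_full M hd'⟩) := by
        rw [heckeBetaBar_ratEmb]
        apply Subtype.ext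
        rw [coe_ratEmb, coe_ratEmb]
        congr 1
        exact (qExpand_qExpand d' q jq).symm
      rw [h1, hTG.w_beta]
      exact heckeAlphaBar_mem_ratForm M q K₀ (ratEmb_mem_ratForm M K₀ _)
  | algebraMap c =>
    have h1 : ratEmb (M * q) ⟨algebraMap ℚ (LaurentSeries ℚ) c, hg⟩
        = algebraMap Kb (FN (M * q)) (algebraMap ℚ Kb c) := by
      apply Subtype.ext
      rw [coe_ratEmb]
      show coeffEmb Kb (algebraMap ℚ (LaurentSeries ℚ) c)
        = algebraMap Kb (LaurentSeries Kb) (algebraMap ℚ Kb c)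
      rw [coeffEmb, algebraMap_laurentSeries_eq_single, coeffMap_single,
        ← algebraMap_laurentSeries_eq_single]
    rw [h1, hTG.w_algebraMap]
    exact algebraMap_mem_ratForm _ K₀ (K₀.algebraMap_mem c)
  | add a b ha hb iha ihb =>
    have h1 : ratEmb (M * q) ⟨a + b, hg⟩
        = ratEmb (M * q) ⟨a, ha⟩ + ratEmb (M * q) ⟨b, hb⟩ := by
      rw [← map_add]
      rfl
    rw [h1, map_add]
    exact add_mem (iha ha) (ihb hb)
  | inv a ha iha =>
    have h1 : ratEmb (M * q) ⟨a⁻¹, hg⟩ = (ratEmb (M * q) ⟨a, ha⟩)⁻¹ := by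
      rw [← map_inv₀]
      rfl
    rw [h1, map_inv₀]
    exact inv_mem (iha ha)
  | mul a b ha hb iha ihb =>
    have h1 : ratEmb (M * q) ⟨a * b, hg⟩
        = ratEmb (M * q) ⟨a, ha⟩ * ratEmb (M * q) ⟨b, hb⟩ := by
      rw [← map_mul]
      rfl
    rw [h1, map_mul]
    exact mul_mem (iha ha) (ihb hb)

/-- **(W)** The Atkin–Lehner involution preserves the `K₀`-form. -/
theorem w_mem_ratForm (hTG : TwoGauss M q hqM A hA O₁ w) (K₀ : IntermediateField ℚ Kb)
    {f : FN (M * q)} (hf : f ∈ ratForm (M * q) K₀) : w f ∈ ratForm (M * q) K₀ := by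
  induction hf using IntermediateField.adjoin_induction with
  | mem y hy =>
    obtain ⟨g, rfl⟩ := hy
    exact w_ratEmb_mem_ratForm hTG K₀ g
  | algebraMap c =>
    have h : w (algebraMap K₀ (FN (M * q)) c) = algebraMap Kb (FN (M * q)) (c : Kb) :=
      hTG.w_algebraMap (c : Kb)
    rw [h]
    exact algebraMap_mem_ratForm _ K₀ c.2
  | add y z _ _ hy hz => rw [map_add]; exact add_mem hy hz
  | inv y _ hy => rw [map_inv₀]; exact inv_mem hy
  | mul y z _ _ hy hz => rw [map_mul]; exact mul_mem hy hz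

end Node


section NodeTau

open Fermat.Agent.S34.H64

variable {M q : ℕ} [NeZero M] [hqF : Fact q.Prime] {hqM : ¬ q ∣ M} {A : ValuationSubring Kb}
  {hA : A.LiesOverPrime q} {O₁ : ValuationSubring (FN (M * q))}
  {w : FN (M * q) ≃+* FN (M * q)}

/-- The decomposition group preserves the second Gauss ring. -/
theorem galois_mem_gaussTwo (hTG : TwoGauss M q hqM A hA O₁ w) {σ : Kb ≃ₐ[ℚ] Kb}
    (hσ : σ ∈ A.decompositionSubgroup ℚ) {g : FN (M * q)} (hg : g ∈ gaussTwo M q O₁ w) :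
    arithmeticRingAut (modularFunctionFieldFull (M * q)) σ g ∈ gaussTwo M q O₁ w := by
  rw [mem_gaussTwo] at hg ⊢
  rw [hTG.w_galois]
  exact hTG.galois_mem σ hσ _ hg

/-- Inertia acts trivially on the residue field of the second Gauss ring. -/
theorem inertia_sub_mem_gaussTwo (hTG : TwoGauss M q hqM A hA O₁ w) {σ : Kb ≃ₐ[ℚ] Kb}
    (hσ : σ ∈ A.inertiaSubgroupIn ℚ) {g : FN (M * q)} (hg : g ∈ gaussTwo M q O₁ w) :
    arithmeticRingAut (modularFunctionFieldFull (M * q)) σ g - g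
      ∈ (gaussTwo M q O₁ w).nonunits := by
  rw [mem_nonunits_gaussTwo, map_sub, hTG.w_galois]
  exact hTG.inertia_sub_mem σ hσ _ hg

/-- The decomposition group preserves the valuation of the first Gauss ring. -/
theorem galois_div_mem (hTG : TwoGauss M q hqM A hA O₁ w) {σ : Kb ≃ₐ[ℚ] Kb}
    (hσ : σ ∈ A.decompositionSubgroup ℚ) {f : FN (M * q)} (hf : f ≠ 0) :
    arithmeticRingAut (modularFunctionFieldFull (M * q)) σ f / f ∈ O₁ := by
  obtain ⟨c, hc0, h1, h2⟩ := hTG.scale f hf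
  have hσc0 : σ c ≠ 0 := (_root_.map_ne_zero σ).mpr hc0
  have hFc0 : algebraMap Kb (FN (M * q)) c ≠ 0 := (_root_.map_ne_zero _).mpr hc0
  have hFσc0 : algebraMap Kb (FN (M * q)) (σ c) ≠ 0 := (_root_.map_ne_zero _).mpr hσc0
  have hσf0 : arithmeticRingAut (modularFunctionFieldFull (M * q)) σ f ≠ 0 :=
    (_root_.map_ne_zero _).mpr hf
  have h3 := hTG.galois_mem σ hσ _ h1
  rw [map_mul, arithmeticRingAut_algebraMap] at h3
  have hσ' : σ.symm ∈ A.decompositionSubgroup ℚ := (A.decompositionSubgroup ℚ).inv_mem hσ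
  have h5 : c / σ c ∈ A := by
    have h := apply_div_self_mem A hσ' hσc0
    rwa [σ.symm_apply_apply] at h
  have h6 : algebraMap Kb (FN (M * q)) (c / σ c) ∈ O₁ := (hTG.algebraMap_mem_iff _).mpr h5
  have h7 : arithmeticRingAut (modularFunctionFieldFull (M * q)) σ f / f
      = algebraMap Kb (FN (M * q)) (σ c) *
          arithmeticRingAut (modularFunctionFieldFull (M * q)) σ f *
        (algebraMap Kb (FN (M * q)) c * f)⁻¹ * algebraMap Kb (FN (M * q)) (c / σ c) := by
    rw [map_div₀]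
    field_simp
  rw [h7]
  exact O₁.mul_mem _ _ (O₁.mul_mem _ _ h3 h2) h6

/-- The decomposition group preserves the valuation of the first Gauss ring, other direction. -/
theorem galois_div_mem' (hTG : TwoGauss M q hqM A hA O₁ w) {σ : Kb ≃ₐ[ℚ] Kb}
    (hσ : σ ∈ A.decompositionSubgroup ℚ) {f : FN (M * q)} (hf : f ≠ 0) :
    f / arithmeticRingAut (modularFunctionFieldFull (M * q)) σ f ∈ O₁ := by
  have hσ' : σ.symm ∈ A.decompositionSubgroup ℚ := (A.decompositionSubgroup ℚ).inv_mem hσ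
  have hσf0 : arithmeticRingAut (modularFunctionFieldFull (M * q)) σ f ≠ 0 :=
    (_root_.map_ne_zero _).mpr hf
  have h := galois_div_mem hTG hσ' hσf0
  have h2 : arithmeticRingAut (modularFunctionFieldFull (M * q)) σ.symm
      (arithmeticRingAut (modularFunctionFieldFull (M * q)) σ f) = f :=
    (arithmeticRingAut (modularFunctionFieldFull (M * q)) σ).symm_apply_apply f
  rwa [h2] at h

/-- **(L5-TAU)**  For `σ` in the inertia group of `A ∣ q` and `K₀` normal: the restriction `τ` of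
the Galois action of `σ` to the `K₀`-form of `F_{Mq}` preserves the two Gauss rings restricted to
the `K₀`-form and acts trivially on their residue fields. -/
theorem tauForm_twoGauss (hTG : TwoGauss M q hqM A hA O₁ w) (K₀ : IntermediateField ℚ Kb)
    [Normal ℚ K₀] (σ : Kb ≃ₐ[ℚ] Kb) (hσ : σ ∈ A.inertiaSubgroupIn ℚ) :
    (∀ y ∈ O₁.comap (algebraMap ↥(ratForm (M * q) K₀) (FN (M * q))),
      tauForm (M * q) K₀ σ y ∈ O₁.comap (algebraMap ↥(ratForm (M * q) K₀) (FN (M * q)))) ∧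
    (∀ y ∈ (gaussTwo M q O₁ w).comap (algebraMap ↥(ratForm (M * q) K₀) (FN (M * q))),
      tauForm (M * q) K₀ σ y ∈
        (gaussTwo M q O₁ w).comap (algebraMap ↥(ratForm (M * q) K₀) (FN (M * q)))) ∧
    (∀ y ∈ O₁.comap (algebraMap ↥(ratForm (M * q) K₀) (FN (M * q))),
      tauForm (M * q) K₀ σ y - y ∈
        (O₁.comap (algebraMap ↥(ratForm (M * q) K₀) (FN (M * q)))).nonunits) ∧
    (∀ y ∈ (gaussTwo M q O₁ w).comap (algebraMap ↥(ratForm (M * q) K₀) (FN (M * q))),
      tauForm (M * q) K₀ σ y - y ∈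
        ((gaussTwo M q O₁ w).comap (algebraMap ↥(ratForm (M * q) K₀) (FN (M * q)))).nonunits) := by
  have hσd := Fermat.Agent.S05.H63.mem_decompositionSubgroup_of_mem_inertiaSubgroupIn hσ
  exact ⟨fun y hy => tauForm_mem_comap _ K₀ σ O₁ (fun f hf => hTG.galois_mem σ hσd f hf) hy,
    fun y hy => tauForm_mem_comap _ K₀ σ (gaussTwo M q O₁ w)
      (fun f hf => galois_mem_gaussTwo hTG hσd hf) hy,
    fun y hy => tauForm_sub_mem_nonunits_comap _ K₀ σ O₁
      (fun f hf => hTG.inertia_sub_mem σ hσ f hf) hy,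
    fun y hy => tauForm_sub_mem_nonunits_comap _ K₀ σ (gaussTwo M q O₁ w)
      (fun f hf => inertia_sub_mem_gaussTwo hTG hσ hf) hy⟩

/-- **(τ_val)**  `τ` preserves the valuations of both Gauss rings: `τ y / y` and `y / τ y` are
integral at both. -/
theorem tauForm_val (hTG : TwoGauss M q hqM A hA O₁ w) (K₀ : IntermediateField ℚ Kb)
    [Normal ℚ K₀] (σ : Kb ≃ₐ[ℚ] Kb) (hσ : σ ∈ A.decompositionSubgroup ℚ)
    (y : ↥(ratForm (M * q) K₀)) (hy : y ≠ 0) :
    (tauForm (M * q) K₀ σ y / y ∈ O₁.comap (algebraMap ↥(ratForm (M * q) K₀) (FN (M * q))) ∧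
      y / tauForm (M * q) K₀ σ y ∈ O₁.comap (algebraMap ↥(ratForm (M * q) K₀) (FN (M * q)))) ∧
    (tauForm (M * q) K₀ σ y / y ∈
        (gaussTwo M q O₁ w).comap (algebraMap ↥(ratForm (M * q) K₀) (FN (M * q))) ∧
      y / tauForm (M * q) K₀ σ y ∈
        (gaussTwo M q O₁ w).comap (algebraMap ↥(ratForm (M * q) K₀) (FN (M * q)))) := by
  have hy0 : (y : FN (M * q)) ≠ 0 := fun h => hy (Subtype.ext h)
  have hwy0 : w (y : FN (M * q)) ≠ 0 := (map_ne_zero_iff w w.injective).mpr hy0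
  have e1 : algebraMap ↥(ratForm (M * q) K₀) (FN (M * q)) (tauForm (M * q) K₀ σ y / y)
      = arithmeticRingAut (modularFunctionFieldFull (M * q)) σ (y : FN (M * q)) / y := by
    rw [map_div₀]
    rfl
  have e2 : algebraMap ↥(ratForm (M * q) K₀) (FN (M * q)) (y / tauForm (M * q) K₀ σ y)
      = (y : FN (M * q)) / arithmeticRingAut (modularFunctionFieldFull (M * q)) σ y := by
    rw [map_div₀]
    rfl
  refine ⟨⟨?_, ?_⟩, ?_, ?_⟩
  · show algebraMap ↥(ratForm (M * q) K₀) (FN (M * q)) (tauForm (M * q) K₀ σ y / y) ∈ O₁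
    rw [e1]
    exact galois_div_mem hTG hσ hy0
  · show algebraMap ↥(ratForm (M * q) K₀) (FN (M * q)) (y / tauForm (M * q) K₀ σ y) ∈ O₁
    rw [e2]
    exact galois_div_mem' hTG hσ hy0
  · show w (algebraMap ↥(ratForm (M * q) K₀) (FN (M * q)) (tauForm (M * q) K₀ σ y / y)) ∈ O₁
    rw [e1, map_div₀, hTG.w_galois]
    exact galois_div_mem hTG hσ hwy0
  · show w (algebraMap ↥(ratForm (M * q) K₀) (FN (M * q)) (y / tauForm (M * q) K₀ σ y)) ∈ O₁
    rw [e2, map_div₀, hTG.w_galois]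
    exact galois_div_mem' hTG hσ hwy0

end NodeTau

end Fermat.Agent.S34.H61
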