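/-
S34 / Program B', (M1)/(M3) glue (helper61): the maps between the `K₀`-forms.

On the carriers `K = ↥(ratForm M K₀)` (level `M`, prime to `q`) and `L = ↥(ratForm (M * q) K₀)`:
* `alphaForm`, `betaForm : K →+* L` (restrictions of `heckeAlphaBar`, `heckeBetaBar`);
  `algAlpha` : the algebra structure `K → L` along `α`, `isScalarTower_algAlpha`;
* `wForm hTG K₀ : L ≃+* L` (restriction of the Atkin–Lehner involution), `wForm_wForm`,
  `wForm_alphaForm`, `wForm_betaForm`, `wForm_algebraMap`;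
* `alphaForm_mem_comap_iff`, `alphaForm_mem_comap_gaussTwo_iff` : `V_k ∩ α(K) = α(O₀)` for the two
  Gauss rings; `mem_comap_gaussTwo_iff` : `g ∈ V₂ ↔ wForm g ∈ V₁`;
* `tauForm_algebraMap`, `tauForm_symm_algebraMap`, `tauForm_alphaForm`, `tauForm_ratEmb`,
  `tauForm_twoGauss_iff`;
* `finite_ratSub_top`, `transcendental_top` (abstract): finiteness over `K₀(x)` and transcendence
  of `x` go up along a finite extension `K → L`.
-/
import Fermat.Agent.S34.H61.TauDescent

set_option autoImplicit false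

open IntermediateField Polynomial ModularCurve AlgebraicCurve

noncomputable section

namespace Fermat.Agent.S34.H61

open Fermat.Agent.S18 Fermat.Agent.S18.H74 Fermat.Agent.S34.H19

/-! ### Abstract: finiteness and transcendence along a finite extension -/

section Abstract

variable {A₀ K L : Type*} [CommRing A₀] [Field K] [Field L] [Algebra A₀ K] [Algebra A₀ L]
  [Algebra K L] [IsScalarTower A₀ K L]

/-- `algebraMap K L` maps `K₀(x)` into `K₀(algebraMap K L x)`. -/
theorem algebraMap_mem_ratSub (x : K) {r : K} (hr : r ∈ H19.ratSub A₀ x) :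
    algebraMap K L r ∈ H19.ratSub A₀ (algebraMap K L x) := by
  have hle : H19.ratSub A₀ x ≤ (H19.ratSub A₀ (algebraMap K L x)).comap (algebraMap K L) := by
    rw [H19.ratSub, Subfield.closure_le]
    rintro y (⟨a, rfl⟩ | hy)
    · refine Subfield.subset_closure (Or.inl ⟨a, ?_⟩)
      exact IsScalarTower.algebraMap_apply A₀ K L a
    · rw [Set.mem_singleton_iff] at hy
      subst hy
      exact Subfield.subset_closure (Or.inr rfl)
  exact hle hr

/-- Finiteness over `K₀(x)` goes up along a finite extension. -/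
theorem finite_ratSub_top (x : K) [Module.Finite (H19.ratSub A₀ x) K] [Module.Finite K L] :
    Module.Finite (H19.ratSub A₀ (algebraMap K L x)) L := by
  let φ : H19.ratSub A₀ x →+* H19.ratSub A₀ (algebraMap K L x) :=
    ((algebraMap K L).comp (H19.ratSub A₀ x).subtype).codRestrict
      (H19.ratSub A₀ (algebraMap K L x)) (fun r => algebraMap_mem_ratSub x r.2)
  letI : Algebra (H19.ratSub A₀ x) (H19.ratSub A₀ (algebraMap K L x)) := φ.toAlgebra
  have h1 : Module.Finite (H19.ratSub A₀ x) L := Module.Finite.trans K L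
  have h2 : IsScalarTower (H19.ratSub A₀ x) (H19.ratSub A₀ (algebraMap K L x)) L := by
    refine ⟨fun r s l => ?_⟩
    have e1 : (r • s) • l = ((φ r * s : H19.ratSub A₀ (algebraMap K L x)) : L) * l := rfl
    have e2 : s • l = (s : L) * l := rfl
    have e3 : ∀ l' : L, r • l' = algebraMap K L (r : K) * l' :=
      fun l' => Algebra.smul_def (r : K) l'
    rw [e1, e2, e3, ← mul_assoc]
    rfl
  exact Module.Finite.of_restrictScalars_finite (H19.ratSub A₀ x) _ L

/-- Transcendence of `x` goes up along a field extension. -/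
theorem transcendental_top (x : K) (hx : Transcendental A₀ x) :
    Transcendental A₀ (algebraMap K L x) := by
  intro h
  exact hx ((isAlgebraic_algebraMap_iff (algebraMap K L).injective).mp h)

end Abstract

/-! ### The degeneracy maps on the `K₀`-forms -/

section Maps

variable (M q : ℕ) [NeZero M] [NeZero q] (K₀ : IntermediateField ℚ Kb)

/-- The restriction of `α` to the `K₀`-forms. -/
def alphaForm : ↥(ratForm M K₀) →+* ↥(ratForm (M * q) K₀) :=
  (((heckeAlphaBar Kb M q : FN M →ₐ[Kb] FN (M * q)) : FN M →+* FN (M * q)).comp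
    (algebraMap ↥(ratForm M K₀) (FN M))).codRestrict (ratForm (M * q) K₀).toSubfield
    (fun f => heckeAlphaBar_mem_ratForm M q K₀ f.2)

/-- The restriction of `β` to the `K₀`-forms. -/
def betaForm : ↥(ratForm M K₀) →+* ↥(ratForm (M * q) K₀) :=
  (((heckeBetaBar Kb M q : FN M →ₐ[Kb] FN (M * q)) : FN M →+* FN (M * q)).comp
    (algebraMap ↥(ratForm M K₀) (FN M))).codRestrict (ratForm (M * q) K₀).toSubfield
    (fun f => heckeBetaBar_mem_ratForm M q K₀ f.2)

@[simp] theorem coe_alphaForm (f : ↥(ratForm M K₀)) :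
    ((alphaForm M q K₀ f : ↥(ratForm (M * q) K₀)) : FN (M * q))
      = heckeAlphaBar Kb M q (f : FN M) := rfl

@[simp] theorem coe_betaForm (f : ↥(ratForm M K₀)) :
    ((betaForm M q K₀ f : ↥(ratForm (M * q) K₀)) : FN (M * q))
      = heckeBetaBar Kb M q (f : FN M) := rfl

theorem alphaForm_algebraMap (c : K₀) :
    alphaForm M q K₀ (algebraMap K₀ ↥(ratForm M K₀) c)
      = algebraMap K₀ ↥(ratForm (M * q) K₀) c :=
  Subtype.ext ((heckeAlphaBar Kb M q).commutes (c : Kb))

theorem betaForm_algebraMap (c : K₀) :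
    betaForm M q K₀ (algebraMap K₀ ↥(ratForm M K₀) c)
      = algebraMap K₀ ↥(ratForm (M * q) K₀) c :=
  Subtype.ext ((heckeBetaBar Kb M q).commutes (c : Kb))

/-- The algebra structure `ratForm M K₀ → ratForm (M * q) K₀` along `α`. -/
@[reducible] def algAlpha : Algebra ↥(ratForm M K₀) ↥(ratForm (M * q) K₀) :=
  (alphaForm M q K₀).toAlgebra

theorem algebraMap_algAlpha (f : ↥(ratForm M K₀)) :
    letI := algAlpha M q K₀
    algebraMap ↥(ratForm M K₀) ↥(ratForm (M * q) K₀) f = alphaForm M q K₀ f := rfl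

/-- The tower `A ∩ K₀ → ratForm M K₀ → ratForm (M * q) K₀` (instances: `H19.algComap` on both
levels and `algAlpha`). -/
theorem isScalarTower_algAlpha (A : ValuationSubring Kb) :
    @IsScalarTower ↥(A.comap (algebraMap K₀ Kb)) ↥(ratForm M K₀) ↥(ratForm (M * q) K₀)
      (H19.algComap (A.comap (algebraMap K₀ Kb)) (ratForm M K₀)).toSMul
      (algAlpha M q K₀).toSMul
      (H19.algComap (A.comap (algebraMap K₀ Kb)) (ratForm (M * q) K₀)).toSMul :=
  @IsScalarTower.of_algebraMap_eq ↥(A.comap (algebraMap K₀ Kb)) ↥(ratForm M K₀)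
    ↥(ratForm (M * q) K₀) _ _ _
    (H19.algComap (A.comap (algebraMap K₀ Kb)) (ratForm M K₀)) (algAlpha M q K₀)
    (H19.algComap (A.comap (algebraMap K₀ Kb)) (ratForm (M * q) K₀))
    (fun a => (alphaForm_algebraMap M q K₀ (a : K₀)).symm)

end Maps

/-! ### The Atkin–Lehner involution and the two Gauss rings on the `K₀`-form -/

section Node

open Fermat.Agent.S34.H64

variable {M q : ℕ} [NeZero M] [hqF : Fact q.Prime] {hqM : ¬ q ∣ M} {A : ValuationSubring Kb}
  {hA : A.LiesOverPrime q} {O₁ : ValuationSubring (FN (M * q))}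
  {w : FN (M * q) ≃+* FN (M * q)}

/-- The restriction of the Atkin–Lehner involution to the `K₀`-form. -/
def wForm (hTG : TwoGauss M q hqM A hA O₁ w) (K₀ : IntermediateField ℚ Kb) :
    ↥(ratForm (M * q) K₀) ≃+* ↥(ratForm (M * q) K₀) where
  toFun f := ⟨w f, w_mem_ratForm hTG K₀ f.2⟩
  invFun f := ⟨w f, w_mem_ratForm hTG K₀ f.2⟩
  left_inv f := Subtype.ext (hTG.w_w f)
  right_inv f := Subtype.ext (hTG.w_w f)
  map_mul' _ _ := Subtype.ext (map_mul w _ _)
  map_add' _ _ := Subtype.ext (map_add w _ _)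

@[simp] theorem coe_wForm (hTG : TwoGauss M q hqM A hA O₁ w) (K₀ : IntermediateField ℚ Kb)
    (f : ↥(ratForm (M * q) K₀)) :
    ((wForm hTG K₀ f : ↥(ratForm (M * q) K₀)) : FN (M * q)) = w (f : FN (M * q)) := rfl

theorem wForm_wForm (hTG : TwoGauss M q hqM A hA O₁ w) (K₀ : IntermediateField ℚ Kb)
    (f : ↥(ratForm (M * q) K₀)) : wForm hTG K₀ (wForm hTG K₀ f) = f :=
  Subtype.ext (hTG.w_w f)

theorem wForm_alphaForm (hTG : TwoGauss M q hqM A hA O₁ w) (K₀ : IntermediateField ℚ Kb)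
    (f : ↥(ratForm M K₀)) :
    haveI : NeZero q := ⟨hqF.out.ne_zero⟩
    wForm hTG K₀ (alphaForm M q K₀ f) = betaForm M q K₀ f :=
  Subtype.ext (hTG.w_alpha (f : FN M))

theorem wForm_betaForm (hTG : TwoGauss M q hqM A hA O₁ w) (K₀ : IntermediateField ℚ Kb)
    (f : ↥(ratForm M K₀)) :
    haveI : NeZero q := ⟨hqF.out.ne_zero⟩
    wForm hTG K₀ (betaForm M q K₀ f) = alphaForm M q K₀ f :=
  Subtype.ext (hTG.w_beta (f : FN M))

/-- `wForm` fixes the constants of `A ∩ K₀`. -/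
theorem wForm_algebraMap (hTG : TwoGauss M q hqM A hA O₁ w) (K₀ : IntermediateField ℚ Kb)
    (a : ↥(A.comap (algebraMap K₀ Kb))) :
    letI := H19.algComap (A.comap (algebraMap K₀ Kb)) (ratForm (M * q) K₀)
    wForm hTG K₀ (algebraMap ↥(A.comap (algebraMap K₀ Kb)) ↥(ratForm (M * q) K₀) a)
      = algebraMap ↥(A.comap (algebraMap K₀ Kb)) ↥(ratForm (M * q) K₀) a :=
  Subtype.ext (hTG.w_algebraMap (((a : K₀) : Kb)))

/-- `V₂ = wForm⁻¹ V₁` on the `K₀`-form. -/
theorem mem_comap_gaussTwo_iff (hTG : TwoGauss M q hqM A hA O₁ w)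
    (K₀ : IntermediateField ℚ Kb) (g : ↥(ratForm (M * q) K₀)) :
    g ∈ (gaussTwo M q O₁ w).comap (algebraMap ↥(ratForm (M * q) K₀) (FN (M * q))) ↔
      wForm hTG K₀ g ∈ O₁.comap (algebraMap ↥(ratForm (M * q) K₀) (FN (M * q))) := Iff.rfl

/-- `V₁ ∩ α(K) = α(O₀)`. -/
theorem alphaForm_mem_comap_iff (hTG : TwoGauss M q hqM A hA O₁ w)
    (K₀ : IntermediateField ℚ Kb) (v : ↥(ratForm M K₀)) :
    haveI : NeZero q := ⟨hqF.out.ne_zero⟩
    alphaForm M q K₀ v ∈ O₁.comap (algebraMap ↥(ratForm (M * q) K₀) (FN (M * q))) ↔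
      v ∈ (H66.gaussO A M hA hqM).comap (algebraMap ↥(ratForm M K₀) (FN M)) :=
  hTG.alpha_mem_iff (v : FN M)

/-- `V₂ ∩ α(K) = α(O₀)`. -/
theorem alphaForm_mem_comap_gaussTwo_iff (hTG : TwoGauss M q hqM A hA O₁ w)
    (K₀ : IntermediateField ℚ Kb) (v : ↥(ratForm M K₀)) :
    haveI : NeZero q := ⟨hqF.out.ne_zero⟩
    alphaForm M q K₀ v ∈
        (gaussTwo M q O₁ w).comap (algebraMap ↥(ratForm (M * q) K₀) (FN (M * q))) ↔
      v ∈ (H66.gaussO A M hA hqM).comap (algebraMap ↥(ratForm M K₀) (FN M)) := by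
  haveI : NeZero q := ⟨hqF.out.ne_zero⟩
  have h1 : alphaForm M q K₀ v ∈
        (gaussTwo M q O₁ w).comap (algebraMap ↥(ratForm (M * q) K₀) (FN (M * q))) ↔
      w (heckeAlphaBar Kb M q (v : FN M)) ∈ O₁ := Iff.rfl
  rw [h1, hTG.w_alpha]
  exact hTG.beta_mem_iff (v : FN M)

end Node

/-! ### More on the Galois action -/

section Tau

variable (N : ℕ) (K₀ : IntermediateField ℚ Kb) [Normal ℚ K₀] (A : ValuationSubring Kb)
  (σ : Kb ≃ₐ[ℚ] Kb)

/-- `τ` maps the constants of `A ∩ K₀` to constants of `A ∩ K₀`. -/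
theorem tauForm_algebraMap (hσ : σ ∈ A.decompositionSubgroup ℚ)
    (a : ↥(A.comap (algebraMap K₀ Kb))) :
    letI := H19.algComap (A.comap (algebraMap K₀ Kb)) (ratForm N K₀)
    ∃ a' : ↥(A.comap (algebraMap K₀ Kb)),
      tauForm N K₀ σ (algebraMap ↥(A.comap (algebraMap K₀ Kb)) ↥(ratForm N K₀) a)
        = algebraMap ↥(A.comap (algebraMap K₀ Kb)) ↥(ratForm N K₀) a' := by
  let _ := H19.algComap (A.comap (algebraMap K₀ Kb)) (ratForm N K₀)
  have h1 : σ ((a : K₀) : Kb) ∈ K₀ := map_mem_of_normal K₀ σ (a : K₀).2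
  have h2 : σ ((a : K₀) : Kb) ∈ A :=
    Fermat.Agent.S05.H63.apply_mem_of_mem_decompositionSubgroup hσ a.2
  refine ⟨⟨⟨σ ((a : K₀) : Kb), h1⟩, h2⟩, ?_⟩
  apply Subtype.ext
  rw [coe_tauForm]
  exact arithmeticRingAut_algebraMap (modularFunctionFieldFull N) σ ((a : K₀) : Kb)

/-- `τ⁻¹` maps the constants of `A ∩ K₀` to constants of `A ∩ K₀`. -/
theorem tauForm_symm_algebraMap (hσ : σ ∈ A.decompositionSubgroup ℚ)
    (a : ↥(A.comap (algebraMap K₀ Kb))) :
    letI := H19.algComap (A.comap (algebraMap K₀ Kb)) (ratForm N K₀)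
    ∃ a' : ↥(A.comap (algebraMap K₀ Kb)),
      (tauForm N K₀ σ).symm (algebraMap ↥(A.comap (algebraMap K₀ Kb)) ↥(ratForm N K₀) a)
        = algebraMap ↥(A.comap (algebraMap K₀ Kb)) ↥(ratForm N K₀) a' := by
  have hσ' : σ.symm ∈ A.decompositionSubgroup ℚ := (A.decompositionSubgroup ℚ).inv_mem hσ
  exact tauForm_algebraMap N K₀ A σ.symm hσ' a

/-- `τ` fixes the rational functions. -/
theorem tauForm_ratEmb (x₀ : ↥(ratForm N K₀)) (hx₀ : (x₀ : FN N) ∈ Set.range (ratEmb N)) :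
    tauForm N K₀ σ x₀ = x₀ := by
  obtain ⟨g, hg⟩ := hx₀
  apply Subtype.ext
  rw [coe_tauForm, ← hg]
  exact arithmeticRingAut_ratEmb N σ g

end Tau

section TauNode

open Fermat.Agent.S34.H64

variable {M q : ℕ} [NeZero M] [hqF : Fact q.Prime] {hqM : ¬ q ∣ M} {A : ValuationSubring Kb}
  {hA : A.LiesOverPrime q} {O₁ : ValuationSubring (FN (M * q))}
  {w : FN (M * q) ≃+* FN (M * q)}

/-- The Galois action commutes with `α`. -/
theorem arithmeticRingAut_heckeAlphaBar (M q : ℕ) [NeZero M] [NeZero q] (σ : Kb ≃ₐ[ℚ] Kb)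
    (f : FN M) :
    arithmeticRingAut (modularFunctionFieldFull (M * q)) σ (heckeAlphaBar Kb M q f)
      = heckeAlphaBar Kb M q (arithmeticRingAut (modularFunctionFieldFull M) σ f) := by
  apply Subtype.ext
  rw [coe_arithmeticRingAut_apply, coe_heckeAlphaBar, coe_heckeAlphaBar,
    coe_arithmeticRingAut_apply]

/-- `τ` commutes with `α`. -/
theorem tauForm_alphaForm (M q : ℕ) [NeZero M] [NeZero q] (K₀ : IntermediateField ℚ Kb)
    [Normal ℚ K₀] (σ : Kb ≃ₐ[ℚ] Kb) (f : ↥(ratForm M K₀)) :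
    tauForm (M * q) K₀ σ (alphaForm M q K₀ f) = alphaForm M q K₀ (tauForm M K₀ σ f) :=
  Subtype.ext (arithmeticRingAut_heckeAlphaBar M q σ (f : FN M))

/-- `τ` preserves the two Gauss rings of the `K₀`-form, in both directions. -/
theorem tauForm_twoGauss_iff (hTG : TwoGauss M q hqM A hA O₁ w) (K₀ : IntermediateField ℚ Kb)
    [Normal ℚ K₀] (σ : Kb ≃ₐ[ℚ] Kb) (hσ : σ ∈ A.decompositionSubgroup ℚ) :
    (∀ y : ↥(ratForm (M * q) K₀),
      tauForm (M * q) K₀ σ y ∈ O₁.comap (algebraMap ↥(ratForm (M * q) K₀) (FN (M * q))) ↔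
        y ∈ O₁.comap (algebraMap ↥(ratForm (M * q) K₀) (FN (M * q)))) ∧
    (∀ y : ↥(ratForm (M * q) K₀),
      tauForm (M * q) K₀ σ y ∈
          (gaussTwo M q O₁ w).comap (algebraMap ↥(ratForm (M * q) K₀) (FN (M * q))) ↔
        y ∈ (gaussTwo M q O₁ w).comap (algebraMap ↥(ratForm (M * q) K₀) (FN (M * q)))) := by
  have hσ' : σ.symm ∈ A.decompositionSubgroup ℚ := (A.decompositionSubgroup ℚ).inv_mem hσ
  constructor
  · intro y
    constructor
    · intro h
      have h2 := tauForm_mem_comap (M * q) K₀ σ.symm O₁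
        (fun f hf => hTG.galois_mem σ.symm hσ' f hf) h
      rwa [tauForm_symm_tauForm] at h2
    · exact tauForm_mem_comap (M * q) K₀ σ O₁ (fun f hf => hTG.galois_mem σ hσ f hf)
  · intro y
    constructor
    · intro h
      have h2 := tauForm_mem_comap (M * q) K₀ σ.symm (gaussTwo M q O₁ w)
        (fun f hf => galois_mem_gaussTwo hTG hσ' hf) h
      rwa [tauForm_symm_tauForm] at h2
    · exact tauForm_mem_comap (M * q) K₀ σ (gaussTwo M q O₁ w)
        (fun f hf => galois_mem_gaussTwo hTG hσ hf)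

end TauNode

end Fermat.Agent.S34.H61
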