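/-
S34 / Program B', (M3)-CONCRETE and (M1)-CONCRETE on the `K₀`-forms (helper61).

Carriers: `A₀ = A ∩ K₀`, `K = ↥(ratForm M K₀)` (level `M`, prime to `q`),
`L = ↥(ratForm (M * q) K₀)`, the algebra structures `H19.algComap` on both levels and
`algAlpha M q K₀ : Algebra K L` (along `α`).  Valuation subrings:
`gaussForm` (`O₀ = gaussO ∩ K`), `gaussOne` (`V₁ = O₁ ∩ L`), `gaussTwoForm` (`V₂ = w⁻¹ O₁ ∩ L`).

* `vGood_ratForm` : helper10's `H10.VGood` (= the two-valuation fields of `H30.VData.Good`) for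
  `j = α(x)`, from `H64.TwoGauss`, the two level-`M` descended setups and `H64.TwoExt`;
* `vTau_ratForm` : helper10's `H10.VTau` (= the `τ`-fields of `H30.VData.Good`) for
  `τ₀ = tauForm (M * q) K₀ σ`, `σ` in the inertia group;
* `dsetup_ratForm_of_basis`, `dsetup_ratForm_top`, `dsetup_ratForm_haupt_two`,
  `dsetup_ratForm_haupt_three`, `exists_dsetup_ratForm` : helper78's (L6) restated on
  `ratForm M K₀` (one rational base function for every `K₀`, all `q` under `LevelHyp2`);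
* `twoExt_ratForm` : `H64.TwoExt` for the three Gauss rings of the `K₀`-forms from helper6's
  two-extension lemma, given F-DEG (`finrank = q + 1` along `α`);
* `vGood_ratForm_of_finrank`, `exists_vGood_vTau_ratForm` : the assembled statement, whose only
  hypothesis besides `H64.TwoGauss` is F-DEG.
-/
import Fermat.Agent.S34.H61.FormMaps
import Fermat.Agent.S34.H10.M3
import Fermat.Agent.S34.H78.L6
import Fermat.Agent.S34.H78.L6Generic
import Fermat.Agent.S34.H19.RatHaupt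
import Fermat.Agent.S34.H6.TwoExt
import Fermat.Agent.S34.H64.TwoGaussCor

set_option autoImplicit false
set_option linter.style.haveILetI false

open IntermediateField Polynomial ModularCurve AlgebraicCurve

noncomputable section

namespace Fermat.Agent.S34.H61

open Fermat.Agent.S18 Fermat.Agent.S18.H74 Fermat.Agent.S34.H19 Fermat.Agent.S34.H64

/-! ### The valuation subrings of the `K₀`-forms -/

/-- `O₀ = gaussO ∩ ratForm M K₀` (level `M` prime to `q`). -/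
def gaussForm (M : ℕ) [NeZero M] {q : ℕ} [Fact q.Prime] (hqM : ¬ q ∣ M) (A : ValuationSubring Kb)
    (hA : A.LiesOverPrime q) (K₀ : IntermediateField ℚ Kb) : ValuationSubring ↥(ratForm M K₀) :=
  (H66.gaussO A M hA hqM).comap (algebraMap ↥(ratForm M K₀) (FN M))

/-- `V₁ = O₁ ∩ ratForm (M * q) K₀`. -/
def gaussOne (M q : ℕ) (O₁ : ValuationSubring (FN (M * q))) (K₀ : IntermediateField ℚ Kb) :
    ValuationSubring ↥(ratForm (M * q) K₀) :=
  O₁.comap (algebraMap ↥(ratForm (M * q) K₀) (FN (M * q)))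

/-- `V₂ = w⁻¹ O₁ ∩ ratForm (M * q) K₀`. -/
def gaussTwoForm (M q : ℕ) (O₁ : ValuationSubring (FN (M * q)))
    (w : FN (M * q) ≃+* FN (M * q)) (K₀ : IntermediateField ℚ Kb) :
    ValuationSubring ↥(ratForm (M * q) K₀) :=
  (gaussTwo M q O₁ w).comap (algebraMap ↥(ratForm (M * q) K₀) (FN (M * q)))

section Node

variable {M q : ℕ} [NeZero M] [hqF : Fact q.Prime] {hqM : ¬ q ∣ M} {A : ValuationSubring Kb}
  {hA : A.LiesOverPrime q} {O₁ : ValuationSubring (FN (M * q))}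
  {w : FN (M * q) ≃+* FN (M * q)}

/-- **(M3)-CONCRETE**: the two-valuation fields of `H30.VData.Good` on the `K₀`-form of
`F_{Mq}`, for the coordinate `j = α(x)`. -/
theorem vGood_ratForm (hTG : TwoGauss M q hqM A hA O₁ w) (K₀ : IntermediateField ℚ Kb)
    [IsDiscreteValuationRing ↥(A.comap (algebraMap K₀ Kb))]
    (ϖ : ↥(A.comap (algebraMap K₀ Kb))) (hϖ : Irreducible ϖ) (x : ↥(ratForm M K₀))
    (hS : @H19.DSetup ↥(A.comap (algebraMap K₀ Kb)) _ ↥(ratForm M K₀) _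
      (H19.algComap (A.comap (algebraMap K₀ Kb)) (ratForm M K₀)) (gaussForm M hqM A hA K₀) x)
    (hS' : @H19.DSetup ↥(A.comap (algebraMap K₀ Kb)) _ ↥(ratForm M K₀) _
      (H19.algComap (A.comap (algebraMap K₀ Kb)) (ratForm M K₀)) (gaussForm M hqM A hA K₀) x⁻¹)
    (hT : haveI : NeZero q := ⟨hqF.out.ne_zero⟩
      @H64.TwoExt ↥(ratForm M K₀) ↥(ratForm (M * q) K₀) _ _ (algAlpha M q K₀)
        (gaussForm M hqM A hA K₀) (gaussOne M q O₁ K₀) (gaussTwoForm M q O₁ w K₀))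
    (halg : haveI : NeZero q := ⟨hqF.out.ne_zero⟩
      @Algebra.IsAlgebraic ↥(ratForm M K₀) ↥(ratForm (M * q) K₀) _ _ (algAlpha M q K₀)) :
    haveI : NeZero q := ⟨hqF.out.ne_zero⟩
    @H10.VGood ↥(A.comap (algebraMap K₀ Kb)) ↥(ratForm (M * q) K₀) _ _
      (H19.algComap (A.comap (algebraMap K₀ Kb)) (ratForm (M * q) K₀)) ϖ
      (alphaForm M q K₀ x)
      (@H19.chart ↥(A.comap (algebraMap K₀ Kb)) _ ↥(ratForm (M * q) K₀) _
        (H19.algComap (A.comap (algebraMap K₀ Kb)) (ratForm (M * q) K₀)) (alphaForm M q K₀ x))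
      (@H19.chart ↥(A.comap (algebraMap K₀ Kb)) _ ↥(ratForm (M * q) K₀) _
        (H19.algComap (A.comap (algebraMap K₀ Kb)) (ratForm (M * q) K₀)) (alphaForm M q K₀ x)⁻¹)
      (gaussOne M q O₁ K₀) (gaussTwoForm M q O₁ w K₀) := by
  haveI : NeZero q := ⟨hqF.out.ne_zero⟩
  exact @H10.vGood_of_dsetup ↥(A.comap (algebraMap K₀ Kb)) _ _ _ _
    ↥(ratForm M K₀) ↥(ratForm (M * q) K₀) _ _
    (H19.algComap (A.comap (algebraMap K₀ Kb)) (ratForm M K₀))
    (H19.algComap (A.comap (algebraMap K₀ Kb)) (ratForm (M * q) K₀))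
    (algAlpha M q K₀) (isScalarTower_algAlpha M q K₀ A)
    (H78.faithfulSMul_comap A K₀ (ratForm M K₀)) halg ϖ hϖ
    (gaussForm M hqM A hA K₀) x hS hS' (gaussOne M q O₁ K₀) (gaussTwoForm M q O₁ w K₀)
    (fun v => alphaForm_mem_comap_iff hTG K₀ v)
    (fun v => alphaForm_mem_comap_gaussTwo_iff hTG K₀ v) hT
    (wForm hTG K₀) (fun a => wForm_algebraMap hTG K₀ a)
    (fun g => mem_comap_gaussTwo_iff hTG K₀ g)

/-- `α` maps rational functions to rational functions. -/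
theorem alphaForm_mem_range_ratEmb (K₀ : IntermediateField ℚ Kb) (x : ↥(ratForm M K₀))
    (hx : (x : FN M) ∈ Set.range (ratEmb M)) :
    haveI : NeZero q := ⟨hqF.out.ne_zero⟩
    ((alphaForm M q K₀ x : ↥(ratForm (M * q) K₀)) : FN (M * q)) ∈ Set.range (ratEmb (M * q)) := by
  haveI : NeZero q := ⟨hqF.out.ne_zero⟩
  obtain ⟨g, hg⟩ := hx
  refine ⟨⟨g, full_degeneracy_le (dvd_mul_right M q) g.2⟩, ?_⟩
  rw [coe_alphaForm, ← hg, heckeAlphaBar_ratEmb]

/-- **(M1)-CONCRETE**: the `τ`-fields of `H30.VData.Good` on the `K₀`-form of `F_{Mq}` (`K₀`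
normal over `ℚ`), for `τ₀ = tauForm (M * q) K₀ σ`, `σ` in the inertia group of `A`, and the charts
of a rational coordinate `j`. -/
theorem vTau_ratForm (hTG : TwoGauss M q hqM A hA O₁ w) (K₀ : IntermediateField ℚ Kb)
    [Normal ℚ K₀] (σ : Kb ≃ₐ[ℚ] Kb) (hσ : σ ∈ A.inertiaSubgroupIn ℚ)
    (ϖ : ↥(A.comap (algebraMap K₀ Kb))) (hϖ : ϖ ≠ 0) (j : ↥(ratForm (M * q) K₀))
    (hj : (j : FN (M * q)) ∈ Set.range (ratEmb (M * q))) :
    @H10.VTau ↥(A.comap (algebraMap K₀ Kb)) ↥(ratForm (M * q) K₀) _ _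
      (H19.algComap (A.comap (algebraMap K₀ Kb)) (ratForm (M * q) K₀)) ϖ
      (@H19.chart ↥(A.comap (algebraMap K₀ Kb)) _ ↥(ratForm (M * q) K₀) _
        (H19.algComap (A.comap (algebraMap K₀ Kb)) (ratForm (M * q) K₀)) j)
      (@H19.chart ↥(A.comap (algebraMap K₀ Kb)) _ ↥(ratForm (M * q) K₀) _
        (H19.algComap (A.comap (algebraMap K₀ Kb)) (ratForm (M * q) K₀)) j⁻¹)
      (gaussOne M q O₁ K₀) (gaussTwoForm M q O₁ w K₀) (tauForm (M * q) K₀ σ) := by
  have hσd := Fermat.Agent.S05.H63.mem_decompositionSubgroup_of_mem_inertiaSubgroupIn hσ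
  obtain ⟨h1, h2, h3, h4⟩ := tauForm_twoGauss hTG K₀ σ hσ
  exact @H10.VTau.mk ↥(A.comap (algebraMap K₀ Kb)) ↥(ratForm (M * q) K₀) _ _
    (H19.algComap (A.comap (algebraMap K₀ Kb)) (ratForm (M * q) K₀)) ϖ _ _ _ _ _
    (fun c => tauForm_mem_chart_iff (M * q) K₀ A σ hσd j hj c)
    (fun c => tauForm_mem_chart_inv_iff (M * q) K₀ A σ hσd j hj c) h1 h2 h3 h4
    (tauForm_unif (M * q) K₀ A σ hσd ϖ hϖ)
    (fun y hy => (tauForm_val hTG K₀ σ hσd y hy).1)
    (fun y hy => (tauForm_val hTG K₀ σ hσd y hy).2)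

end Node

/-! ### The descended setups at the good level, on the `K₀`-form -/

section DSetupForm

open Fermat.Agent.S18.H28 Fermat.Agent.S18.H8

variable (M : ℕ) [NeZero M] {q : ℕ} [Fact q.Prime] (hqM : ¬ q ∣ M) (A : ValuationSubring Kb)
  (hA : A.LiesOverPrime q)

theorem mem_ratForm_of_mem_range (N : ℕ) (K₀ : IntermediateField ℚ Kb) {x : FN N}
    (hx : x ∈ Set.range (ratEmb N)) : x ∈ ratForm N K₀ := by
  obtain ⟨g, rfl⟩ := hx
  exact ratEmb_mem_ratForm N K₀ g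

/-- **(L6) on the `K₀`-form**: for a rational base function `x` of level `M` with a Setup, a
rational orthonormal basis with unit Gram determinant and the branch clause: the descended
setups `DSetup (A ∩ K₀) (gaussO ∩ ratForm M K₀) x` and for `x⁻¹`, for EVERY `K₀`. -/
theorem dsetup_ratForm_of_basis (x : FN M) (hx : x ∈ Set.range (ratEmb M))
    (hS : Setup Kb A (FN M) (H66.gaussO A M hA hqM) x)
    (θ : Fin (Module.finrank Kb⟮x⟯ (FN M)) → FN M)
    (horth : ∀ r : Fin (Module.finrank Kb⟮x⟯ (FN M)) → Kb⟮x⟯,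
      (∑ i, (r i : FN M) * θ i) ∈ H66.gaussO A M hA hqM ↔
        ∀ i, (r i : FN M) ∈ H66.gaussO A M hA hqM)
    (hgram : ((gramDet Kb (FN M) x θ : Kb⟮x⟯) : FN M)⁻¹ ∈ H66.gaussO A M hA hqM)
    (hrat : ∀ i, θ i ∈ Set.range (ratEmb M))
    (hspan : ∀ (K₀ : IntermediateField ℚ Kb) (f : ↥(modularFunctionFieldFull M)),
      ratEmb M f ∈ Submodule.span K₀⟮x⟯ (Set.range θ))
    (hbranch : ∀ (K₀ : IntermediateField ℚ Kb) (F₀ : IntermediateField K₀ (FN M))
      (hx' : x ∈ F₀), H78.BranchAt A K₀ F₀ ⟨x, hx'⟩ ∧ H78.BranchAt A K₀ F₀ (⟨x, hx'⟩ : F₀)⁻¹)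
    (K₀ : IntermediateField ℚ Kb) :
    @H19.DSetup ↥(A.comap (algebraMap K₀ Kb)) _ ↥(ratForm M K₀) _
        (H19.algComap (A.comap (algebraMap K₀ Kb)) (ratForm M K₀)) (gaussForm M hqM A hA K₀)
        ⟨x, mem_ratForm_of_mem_range M K₀ hx⟩ ∧
      @H19.DSetup ↥(A.comap (algebraMap K₀ Kb)) _ ↥(ratForm M K₀) _
        (H19.algComap (A.comap (algebraMap K₀ Kb)) (ratForm M K₀)) (gaussForm M hqM A hA K₀)
        (⟨x, mem_ratForm_of_mem_range M K₀ hx⟩ : ↥(ratForm M K₀))⁻¹ := by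
  have hAtop : A ≠ ⊤ := H78.ne_top_of_liesOverPrime A hA
  have h1 : ∀ K₀ : IntermediateField ℚ Kb,
      (1 : FN M) ∈ Submodule.span K₀⟮x⟯ (Set.range θ) := fun K₀ => by
    have h := hspan K₀ 1
    rwa [map_one] at h
  have hmul : ∀ (K₀ : IntermediateField ℚ Kb) (i j : Fin (Module.finrank Kb⟮x⟯ (FN M))),
      θ i * θ j ∈ Submodule.span K₀⟮x⟯ (Set.range θ) := fun K₀ i j => by
    obtain ⟨si, hsi⟩ := hrat i
    obtain ⟨sj, hsj⟩ := hrat j
    have h := hspan K₀ (si * sj)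
    rwa [map_mul, hsi, hsj] at h
  obtain ⟨F₀, hG, hF₀, hD, hD'⟩ := H78.l6_generic A hAtop (H66.gaussO A M hA hqM) x hS θ horth
    hgram h1 hmul hbranch K₀
  have e : F₀ = ratForm M K₀ := eq_ratForm_of_span M K₀ x hx θ hrat (hspan K₀) F₀ hF₀
  subst e
  exact ⟨hD, hD'⟩

/-- **(L6) on the `K₀`-form, `q ≥ 5`**: the coordinate `x = j(q^M)`. -/
theorem dsetup_ratForm_top (h2 : q ≠ 2) (h3 : q ≠ 3) (K₀ : IntermediateField ℚ Kb) :
    @H19.DSetup ↥(A.comap (algebraMap K₀ Kb)) _ ↥(ratForm M K₀) _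
        (H19.algComap (A.comap (algebraMap K₀ Kb)) (ratForm M K₀)) (gaussForm M hqM A hA K₀)
        ⟨jtop M, mem_ratForm_of_mem_range M K₀ ⟨jqNFull M, rfl⟩⟩ ∧
      @H19.DSetup ↥(A.comap (algebraMap K₀ Kb)) _ ↥(ratForm M K₀) _
        (H19.algComap (A.comap (algebraMap K₀ Kb)) (ratForm M K₀)) (gaussForm M hqM A hA K₀)
        (⟨jtop M, mem_ratForm_of_mem_range M K₀ ⟨jqNFull M, rfl⟩⟩ : ↥(ratForm M K₀))⁻¹ := by
  obtain ⟨θ, horth, hgram, hrat, hspan, -, -⟩ := exists_rat_basis_top M hqM A hA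
  exact dsetup_ratForm_of_basis M hqM A hA (jtop M) ⟨jqNFull M, rfl⟩
    (setup_top M hqM A hA h2 h3) θ horth hgram hrat hspan
    (fun K₀ F₀ hx => dsetup_branch_top M A hA h2 h3 K₀ F₀ hx) K₀

/-- **(L6) on the `K₀`-form, level divisible by two** (`q ≠ 2`; used for `q = 3`): the
Hauptmodul of level two. -/
theorem dsetup_ratForm_haupt_two (n : ℕ) [NeZero n] (hM : M = n * 2)
    (K₀ : IntermediateField ℚ Kb) :
    @H19.DSetup ↥(A.comap (algebraMap K₀ Kb)) _ ↥(ratForm M K₀) _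
        (H19.algComap (A.comap (algebraMap K₀ Kb)) (ratForm M K₀)) (gaussForm M hqM A hA K₀)
        ⟨hauptTwo n M hM, mem_ratForm_of_mem_range M K₀ ⟨hauptTwoRat n M hM, rfl⟩⟩ ∧
      @H19.DSetup ↥(A.comap (algebraMap K₀ Kb)) _ ↥(ratForm M K₀) _
        (H19.algComap (A.comap (algebraMap K₀ Kb)) (ratForm M K₀)) (gaussForm M hqM A hA K₀)
        (⟨hauptTwo n M hM, mem_ratForm_of_mem_range M K₀ ⟨hauptTwoRat n M hM, rfl⟩⟩ :
          ↥(ratForm M K₀))⁻¹ := by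
  obtain ⟨θ, horth, hgram, hrat, hspan, -, -⟩ := exists_rat_basis_haupt_two n M hM hqM A hA
  exact dsetup_ratForm_of_basis M hqM A hA (hauptTwo n M hM) ⟨hauptTwoRat n M hM, rfl⟩
    (setup_haupt_two n M hM hqM A hA) θ horth hgram hrat hspan
    (fun K₀ F₀ hx => dsetup_branch_haupt_two n M hM hqM A hA K₀ F₀ hx) K₀

/-- **(L6) on the `K₀`-form, level divisible by three** (`q ≠ 3`; used for `q = 2`): the
Hauptmodul of level three. -/
theorem dsetup_ratForm_haupt_three (n : ℕ) [NeZero n] (hM : M = n * 3)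
    (K₀ : IntermediateField ℚ Kb) :
    @H19.DSetup ↥(A.comap (algebraMap K₀ Kb)) _ ↥(ratForm M K₀) _
        (H19.algComap (A.comap (algebraMap K₀ Kb)) (ratForm M K₀)) (gaussForm M hqM A hA K₀)
        ⟨hauptThree n M hM, mem_ratForm_of_mem_range M K₀ ⟨hauptThreeRat n M hM, rfl⟩⟩ ∧
      @H19.DSetup ↥(A.comap (algebraMap K₀ Kb)) _ ↥(ratForm M K₀) _
        (H19.algComap (A.comap (algebraMap K₀ Kb)) (ratForm M K₀)) (gaussForm M hqM A hA K₀)
        (⟨hauptThree n M hM, mem_ratForm_of_mem_range M K₀ ⟨hauptThreeRat n M hM, rfl⟩⟩ :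
          ↥(ratForm M K₀))⁻¹ := by
  obtain ⟨θ, horth, hgram, hrat, hspan, -, -⟩ := exists_rat_basis_haupt_three n M hM hqM A hA
  exact dsetup_ratForm_of_basis M hqM A hA (hauptThree n M hM) ⟨hauptThreeRat n M hM, rfl⟩
    (setup_haupt_three n M hM hqM A hA) θ horth hgram hrat hspan
    (fun K₀ F₀ hx => dsetup_branch_haupt_three n M hM hqM A hA K₀ F₀ hx) K₀

/-- **(L6) on the `K₀`-form, uniform**: under the level hypothesis of `H27.LevelHyp2`
(`2 ∣ M` unless `q = 2`, `3 ∣ M` unless `q = 3`) there is ONE rational base function `x` of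
level `M` such that for EVERY `K₀` both `x` and `x⁻¹` give descended setups on `ratForm M K₀`.
(`q ≥ 5`: `x = j(q^M)`; `q = 3`: the Hauptmodul of level two; `q = 2`: of level three.) -/
theorem exists_dsetup_ratForm (h2 : q ≠ 2 → 2 ∣ M) (h3 : q ≠ 3 → 3 ∣ M) :
    ∃ (x : FN M) (hx : x ∈ Set.range (ratEmb M)), ∀ K₀ : IntermediateField ℚ Kb,
      @H19.DSetup ↥(A.comap (algebraMap K₀ Kb)) _ ↥(ratForm M K₀) _
        (H19.algComap (A.comap (algebraMap K₀ Kb)) (ratForm M K₀)) (gaussForm M hqM A hA K₀)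
        ⟨x, mem_ratForm_of_mem_range M K₀ hx⟩ ∧
      @H19.DSetup ↥(A.comap (algebraMap K₀ Kb)) _ ↥(ratForm M K₀) _
        (H19.algComap (A.comap (algebraMap K₀ Kb)) (ratForm M K₀)) (gaussForm M hqM A hA K₀)
        (⟨x, mem_ratForm_of_mem_range M K₀ hx⟩ : ↥(ratForm M K₀))⁻¹ := by
  by_cases hq2 : q = 2
  · have hq3 : q ≠ 3 := by omega
    obtain ⟨n, hn⟩ := h3 hq3
    have hM : M = n * 3 := by rw [hn, mul_comm]
    haveI : NeZero n := ⟨fun h0 => NeZero.ne M (by rw [hM, h0, zero_mul])⟩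
    exact ⟨hauptThree n M hM, ⟨hauptThreeRat n M hM, rfl⟩,
      fun K₀ => dsetup_ratForm_haupt_three M hqM A hA n hM K₀⟩
  · by_cases hq3 : q = 3
    · obtain ⟨n, hn⟩ := h2 hq2
      have hM : M = n * 2 := by rw [hn, mul_comm]
      haveI : NeZero n := ⟨fun h0 => NeZero.ne M (by rw [hM, h0, zero_mul])⟩
      exact ⟨hauptTwo n M hM, ⟨hauptTwoRat n M hM, rfl⟩,
        fun K₀ => dsetup_ratForm_haupt_two M hqM A hA n hM K₀⟩
    · exact ⟨jtop M, ⟨jqNFull M, rfl⟩, fun K₀ => dsetup_ratForm_top M hqM A hA hq2 hq3 K₀⟩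

end DSetupForm

/-! ### The two-extension lemma on the `K₀`-forms -/

section TwoExtForm

variable {M q : ℕ} [NeZero M] [hqF : Fact q.Prime] {hqM : ¬ q ∣ M} {A : ValuationSubring Kb}
  {hA : A.LiesOverPrime q} {O₁ : ValuationSubring (FN (M * q))}
  {w : FN (M * q) ≃+* FN (M * q)}

/-- An extension of finrank `n + 1` is finite. -/
theorem finite_of_finrank_eq_succ {K L : Type*} [Field K] [Field L] [Algebra K L] {n : ℕ}
    (h : Module.finrank K L = n + 1) : FiniteDimensional K L :=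
  Module.finite_of_finrank_pos (by rw [h]; omega)

/-- An extension of finrank `n + 1` is algebraic. -/
theorem isAlgebraic_of_finrank_eq_succ {K L : Type*} [Field K] [Field L] [Algebra K L] {n : ℕ}
    (h : Module.finrank K L = n + 1) : Algebra.IsAlgebraic K L :=
  haveI := finite_of_finrank_eq_succ h
  Algebra.IsAlgebraic.of_finite K L

/-- The maximal ideal of the restriction of a valuation subring to a subfield. -/
theorem mem_nonunits_comap_iff {F : Type*} [Field F] {S : Type*} [Field S] [Algebra S F]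
    (O : ValuationSubring F) (g : S) :
    g ∈ (O.comap (algebraMap S F)).nonunits ↔ algebraMap S F g ∈ O.nonunits :=
  (H64.mem_nonunits_iff_of_mem_iff (algebraMap S F) (O.comap (algebraMap S F)) O
    (fun _ => Iff.rfl) g).symm

/-- `j` is a rational function. -/
theorem jgen_mem_range_ratEmb (N : ℕ) [NeZero N] :
    Fermat.Agent.S24.jgen N ∈ Set.range (ratEmb N) :=
  ⟨⟨qExpand ℚ 1 jq, jqd_mem_full N (one_dvd N)⟩, rfl⟩

/-- `q` lies in the maximal ideal of the Gauss ring of the `K₀`-form at the good level. -/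
theorem natCast_mem_nonunits_gaussForm (hTG : TwoGauss M q hqM A hA O₁ w)
    (K₀ : IntermediateField ℚ Kb) :
    ((q : ℕ) : ↥(ratForm M K₀)) ∈ (gaussForm M hqM A hA K₀).nonunits := by
  haveI : NeZero q := ⟨hqF.out.ne_zero⟩
  rw [gaussForm, mem_nonunits_comap_iff, map_natCast]
  have h1 : algebraMap Kb (FN (M * q)) ((q : ℕ) : Kb) ∈ O₁.nonunits :=
    (H64.mem_nonunits_iff_of_mem_iff (algebraMap Kb (FN (M * q))) A O₁
      hTG.algebraMap_mem_iff ((q : ℕ) : Kb)).mpr hA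
  have h2 : heckeAlphaBar Kb M q ((q : ℕ) : FN M) = algebraMap Kb (FN (M * q)) ((q : ℕ) : Kb) := by
    rw [map_natCast, map_natCast]
  rw [← h2] at h1
  exact (hTG.alpha_mem_nonunits_iff _).mp h1

/-- The element `y = β(j)` of the `K₀`-form at level `M * q`. -/
def betaJ (M q : ℕ) [NeZero M] [NeZero q] (K₀ : IntermediateField ℚ Kb) : ↥(ratForm (M * q) K₀) :=
  betaForm M q K₀
    ⟨Fermat.Agent.S24.jgen M, mem_ratForm_of_mem_range M K₀ (jgen_mem_range_ratEmb M)⟩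

/-- `j`, as an element of the `K₀`-form at level `M`. -/
def jForm (M : ℕ) [NeZero M] (K₀ : IntermediateField ℚ Kb) : ↥(ratForm M K₀) :=
  ⟨Fermat.Agent.S24.jgen M, mem_ratForm_of_mem_range M K₀ (jgen_mem_range_ratEmb M)⟩

theorem coe_jForm (M : ℕ) [NeZero M] (K₀ : IntermediateField ℚ Kb) :
    ((jForm M K₀ : ↥(ratForm M K₀)) : FN M) = Fermat.Agent.S24.jgen M := rfl

theorem coe_betaJ (M q : ℕ) [NeZero M] [NeZero q] (K₀ : IntermediateField ℚ Kb) :
    ((betaJ M q K₀ : ↥(ratForm (M * q) K₀)) : FN (M * q))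
      = heckeBetaBar Kb M q (Fermat.Agent.S24.jgen M) := rfl

theorem jForm_mem (hTG : TwoGauss M q hqM A hA O₁ w) (K₀ : IntermediateField ℚ Kb) :
    jForm M K₀ ∈ gaussForm M hqM A hA K₀ := by
  show algebraMap ↥(ratForm M K₀) (FN M) (jForm M K₀) ∈ H66.gaussO A M hA hqM
  exact hTG.jgen_mem

theorem betaJ_mem (hTG : TwoGauss M q hqM A hA O₁ w) (K₀ : IntermediateField ℚ Kb) :
    haveI : NeZero q := ⟨hqF.out.ne_zero⟩
    betaJ M q K₀ ∈ gaussTwoForm M q O₁ w K₀ := by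
  haveI : NeZero q := ⟨hqF.out.ne_zero⟩
  show algebraMap ↥(ratForm (M * q) K₀) (FN (M * q)) (betaJ M q K₀) ∈ gaussTwo M q O₁ w
  exact hTG.betaj_mem₂

theorem betaJ_pow_sub_mem (hTG : TwoGauss M q hqM A hA O₁ w) (K₀ : IntermediateField ℚ Kb) :
    haveI : NeZero q := ⟨hqF.out.ne_zero⟩
    betaJ M q K₀ ^ q - alphaForm M q K₀ (jForm M K₀) ∈ (gaussTwoForm M q O₁ w K₀).nonunits := by
  haveI : NeZero q := ⟨hqF.out.ne_zero⟩
  rw [gaussTwoForm, mem_nonunits_comap_iff, map_sub, map_pow]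
  exact hTG.betaj_pow_sub_mem_nonunits₂

theorem betaJ_sub_not_mem (hTG : TwoGauss M q hqM A hA O₁ w) (K₀ : IntermediateField ℚ Kb)
    (v : ↥(ratForm M K₀)) (hv : v ∈ gaussForm M hqM A hA K₀) :
    haveI : NeZero q := ⟨hqF.out.ne_zero⟩
    betaJ M q K₀ - alphaForm M q K₀ v ∉ (gaussTwoForm M q O₁ w K₀).nonunits := by
  haveI : NeZero q := ⟨hqF.out.ne_zero⟩
  intro h
  rw [gaussTwoForm, mem_nonunits_comap_iff, map_sub] at h
  exact hTG.betaj_sub_alpha_not_mem₂ (v : FN M) hv h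

theorem gaussOne_ne_gaussTwoForm (hTG : TwoGauss M q hqM A hA O₁ w)
    (K₀ : IntermediateField ℚ Kb) : gaussOne M q O₁ K₀ ≠ gaussTwoForm M q O₁ w K₀ := by
  haveI : NeZero q := ⟨hqF.out.ne_zero⟩
  intro heq
  have h1 : betaJ M q K₀ - alphaForm M q K₀ (jForm M K₀) ^ q ∈ (gaussOne M q O₁ K₀).nonunits := by
    rw [gaussOne, mem_nonunits_comap_iff, map_sub, map_pow]
    exact hTG.sep_mem_nonunits
  rw [heq, gaussTwoForm, mem_nonunits_comap_iff, map_sub, map_pow] at h1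
  exact hTG.sep_not_mem_nonunits₂ h1

/-- `V₁ ∩ α(K) = α(O₀)`, as an equality of valuation subrings. -/
theorem comap_gaussOne (hTG : TwoGauss M q hqM A hA O₁ w) (K₀ : IntermediateField ℚ Kb) :
    haveI : NeZero q := ⟨hqF.out.ne_zero⟩
    (gaussOne M q O₁ K₀).comap (alphaForm M q K₀) = gaussForm M hqM A hA K₀ := by
  haveI : NeZero q := ⟨hqF.out.ne_zero⟩
  apply SetLike.ext
  intro v
  rw [ValuationSubring.mem_comap]
  exact alphaForm_mem_comap_iff hTG K₀ v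

/-- `V₂ ∩ α(K) = α(O₀)`, as an equality of valuation subrings. -/
theorem comap_gaussTwoForm (hTG : TwoGauss M q hqM A hA O₁ w) (K₀ : IntermediateField ℚ Kb) :
    haveI : NeZero q := ⟨hqF.out.ne_zero⟩
    (gaussTwoForm M q O₁ w K₀).comap (alphaForm M q K₀) = gaussForm M hqM A hA K₀ := by
  haveI : NeZero q := ⟨hqF.out.ne_zero⟩
  apply SetLike.ext
  intro v
  rw [ValuationSubring.mem_comap]
  exact alphaForm_mem_comap_gaussTwo_iff hTG K₀ v

/-- **The two-extension lemma on the `K₀`-forms**: if the Gauss ring of the `K₀`-form at level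
`M` is a discrete valuation ring and the degree along `α` is `q + 1` (F-DEG), the two Gauss rings
of the `K₀`-form at level `M * q` satisfy `H64.TwoExt`. -/
theorem twoExt_ratForm (hTG : TwoGauss M q hqM A hA O₁ w) (K₀ : IntermediateField ℚ Kb)
    (hdvr : IsDiscreteValuationRing ↥(gaussForm M hqM A hA K₀))
    (hdeg : haveI : NeZero q := ⟨hqF.out.ne_zero⟩
      @Module.finrank ↥(ratForm M K₀) ↥(ratForm (M * q) K₀) _ _
        (algAlpha M q K₀).toModule = q + 1) :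
    haveI : NeZero q := ⟨hqF.out.ne_zero⟩
    @H64.TwoExt ↥(ratForm M K₀) ↥(ratForm (M * q) K₀) _ _ (algAlpha M q K₀)
      (gaussForm M hqM A hA K₀) (gaussOne M q O₁ K₀) (gaussTwoForm M q O₁ w K₀) := by
  haveI : NeZero q := ⟨hqF.out.ne_zero⟩
  have hfd : @FiniteDimensional ↥(ratForm M K₀) ↥(ratForm (M * q) K₀) _ _
      (algAlpha M q K₀).toModule :=
    @finite_of_finrank_eq_succ ↥(ratForm M K₀) ↥(ratForm (M * q) K₀) _ _ (algAlpha M q K₀) q hdeg
  have key : TwoExtStatement.{0, 0} := H6.twoExtStatement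
  exact @key ↥(ratForm M K₀) ↥(ratForm (M * q) K₀) _ _ (algAlpha M q K₀) hfd _
    (gaussForm M hqM A hA K₀) hdvr q hqF.out (natCast_mem_nonunits_gaussForm hTG K₀) hdeg
    (gaussOne M q O₁ K₀) (gaussTwoForm M q O₁ w K₀) (comap_gaussOne hTG K₀)
    (comap_gaussTwoForm hTG K₀) (gaussOne_ne_gaussTwoForm hTG K₀)
    (betaJ M q K₀) (betaJ_mem hTG K₀) ⟨jForm M K₀, jForm_mem hTG K₀, betaJ_pow_sub_mem hTG K₀⟩
    (fun v hv => betaJ_sub_not_mem hTG K₀ v hv)

/-- **(M3)-CONCRETE from F-DEG**: `H10.VGood` on the `K₀`-form of `F_{Mq}` for `j = α(x)`, from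
the two level-`M` descended setups and the degree `q + 1` of the `K₀`-forms along `α`. -/
theorem vGood_ratForm_of_finrank (hTG : TwoGauss M q hqM A hA O₁ w)
    (K₀ : IntermediateField ℚ Kb) [IsDiscreteValuationRing ↥(A.comap (algebraMap K₀ Kb))]
    (ϖ : ↥(A.comap (algebraMap K₀ Kb))) (hϖ : Irreducible ϖ) (x : ↥(ratForm M K₀))
    (hS : @H19.DSetup ↥(A.comap (algebraMap K₀ Kb)) _ ↥(ratForm M K₀) _
      (H19.algComap (A.comap (algebraMap K₀ Kb)) (ratForm M K₀)) (gaussForm M hqM A hA K₀) x)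
    (hS' : @H19.DSetup ↥(A.comap (algebraMap K₀ Kb)) _ ↥(ratForm M K₀) _
      (H19.algComap (A.comap (algebraMap K₀ Kb)) (ratForm M K₀)) (gaussForm M hqM A hA K₀) x⁻¹)
    (hdeg : haveI : NeZero q := ⟨hqF.out.ne_zero⟩
      @Module.finrank ↥(ratForm M K₀) ↥(ratForm (M * q) K₀) _ _
        (algAlpha M q K₀).toModule = q + 1) :
    haveI : NeZero q := ⟨hqF.out.ne_zero⟩
    @H10.VGood ↥(A.comap (algebraMap K₀ Kb)) ↥(ratForm (M * q) K₀) _ _
      (H19.algComap (A.comap (algebraMap K₀ Kb)) (ratForm (M * q) K₀)) ϖ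
      (alphaForm M q K₀ x)
      (@H19.chart ↥(A.comap (algebraMap K₀ Kb)) _ ↥(ratForm (M * q) K₀) _
        (H19.algComap (A.comap (algebraMap K₀ Kb)) (ratForm (M * q) K₀)) (alphaForm M q K₀ x))
      (@H19.chart ↥(A.comap (algebraMap K₀ Kb)) _ ↥(ratForm (M * q) K₀) _
        (H19.algComap (A.comap (algebraMap K₀ Kb)) (ratForm (M * q) K₀)) (alphaForm M q K₀ x)⁻¹)
      (gaussOne M q O₁ K₀) (gaussTwoForm M q O₁ w K₀) := by
  haveI : NeZero q := ⟨hqF.out.ne_zero⟩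
  have hfd : @FiniteDimensional ↥(ratForm M K₀) ↥(ratForm (M * q) K₀) _ _
      (algAlpha M q K₀).toModule :=
    @finite_of_finrank_eq_succ ↥(ratForm M K₀) ↥(ratForm (M * q) K₀) _ _ (algAlpha M q K₀) q hdeg
  have halg : @Algebra.IsAlgebraic ↥(ratForm M K₀) ↥(ratForm (M * q) K₀) _ _ (algAlpha M q K₀) :=
    @isAlgebraic_of_finrank_eq_succ ↥(ratForm M K₀) ↥(ratForm (M * q) K₀) _ _ (algAlpha M q K₀) q
      hdeg
  have hdvr : IsDiscreteValuationRing ↥(gaussForm M hqM A hA K₀) :=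
    @H10.isDiscreteValuationRing_of_dsetup ↥(A.comap (algebraMap K₀ Kb)) _ ↥(ratForm M K₀) _
      (H19.algComap (A.comap (algebraMap K₀ Kb)) (ratForm M K₀)) _ _ ϖ hϖ _ x hS
  exact vGood_ratForm hTG K₀ ϖ hϖ x hS hS' (twoExt_ratForm hTG K₀ hdvr hdeg) halg

/-- **(M3) + (M1) on the `K₀`-forms, assembled.**  Under the level hypothesis of
`H27.LevelHyp2` there is ONE rational base function `x` of level `M` such that for every number
field `K₀ ⊆ ℚ̄` normal over `ℚ`, every uniformiser `ϖ` of `A ∩ K₀`, and given F-DEG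
(`[ratForm (M * q) K₀ : α(ratForm M K₀)] = q + 1`): the two-valuation fields (`H10.VGood`) and,
for every `σ` in the inertia group of `A`, the `τ`-fields (`H10.VTau`) of `H30.VData.Good` hold on
`ratForm (M * q) K₀` for `j = α(x)`, its two charts, `V₁ = O₁ ∩ L`, `V₂ = w⁻¹ O₁ ∩ L` and
`τ₀ = tauForm (M * q) K₀ σ`. -/
theorem exists_vGood_vTau_ratForm (hTG : TwoGauss M q hqM A hA O₁ w)
    (h2 : q ≠ 2 → 2 ∣ M) (h3 : q ≠ 3 → 3 ∣ M) :
    haveI : NeZero q := ⟨hqF.out.ne_zero⟩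
    ∃ (x : FN M) (hx : x ∈ Set.range (ratEmb M)),
      ∀ (K₀ : IntermediateField ℚ Kb) [FiniteDimensional ℚ K₀] [Normal ℚ K₀]
        (ϖ : ↥(A.comap (algebraMap K₀ Kb))), Irreducible ϖ →
        @Module.finrank ↥(ratForm M K₀) ↥(ratForm (M * q) K₀) _ _
          (algAlpha M q K₀).toModule = q + 1 →
        @H10.VGood ↥(A.comap (algebraMap K₀ Kb)) ↥(ratForm (M * q) K₀) _ _
          (H19.algComap (A.comap (algebraMap K₀ Kb)) (ratForm (M * q) K₀)) ϖ
          (alphaForm M q K₀ ⟨x, mem_ratForm_of_mem_range M K₀ hx⟩)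
          (@H19.chart ↥(A.comap (algebraMap K₀ Kb)) _ ↥(ratForm (M * q) K₀) _
            (H19.algComap (A.comap (algebraMap K₀ Kb)) (ratForm (M * q) K₀))
            (alphaForm M q K₀ ⟨x, mem_ratForm_of_mem_range M K₀ hx⟩))
          (@H19.chart ↥(A.comap (algebraMap K₀ Kb)) _ ↥(ratForm (M * q) K₀) _
            (H19.algComap (A.comap (algebraMap K₀ Kb)) (ratForm (M * q) K₀))
            (alphaForm M q K₀ ⟨x, mem_ratForm_of_mem_range M K₀ hx⟩)⁻¹)
          (gaussOne M q O₁ K₀) (gaussTwoForm M q O₁ w K₀) ∧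
        ∀ σ ∈ A.inertiaSubgroupIn ℚ,
          @H10.VTau ↥(A.comap (algebraMap K₀ Kb)) ↥(ratForm (M * q) K₀) _ _
            (H19.algComap (A.comap (algebraMap K₀ Kb)) (ratForm (M * q) K₀)) ϖ
            (@H19.chart ↥(A.comap (algebraMap K₀ Kb)) _ ↥(ratForm (M * q) K₀) _
              (H19.algComap (A.comap (algebraMap K₀ Kb)) (ratForm (M * q) K₀))
              (alphaForm M q K₀ ⟨x, mem_ratForm_of_mem_range M K₀ hx⟩))
            (@H19.chart ↥(A.comap (algebraMap K₀ Kb)) _ ↥(ratForm (M * q) K₀) _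
              (H19.algComap (A.comap (algebraMap K₀ Kb)) (ratForm (M * q) K₀))
              (alphaForm M q K₀ ⟨x, mem_ratForm_of_mem_range M K₀ hx⟩)⁻¹)
            (gaussOne M q O₁ K₀) (gaussTwoForm M q O₁ w K₀) (tauForm (M * q) K₀ σ) := by
  haveI : NeZero q := ⟨hqF.out.ne_zero⟩
  have hAtop : A ≠ ⊤ := H78.ne_top_of_liesOverPrime A hA
  obtain ⟨x, hx, hD⟩ := exists_dsetup_ratForm M hqM A hA h2 h3
  refine ⟨x, hx, fun K₀ _ _ ϖ hϖ hdeg => ?_⟩
  haveI : IsDiscreteValuationRing ↥(A.comap (algebraMap K₀ Kb)) := H78.isDVR_comap hAtop K₀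
  obtain ⟨hS, hS'⟩ := hD K₀
  exact ⟨vGood_ratForm_of_finrank hTG K₀ ϖ hϖ _ hS hS' hdeg,
    fun σ hσ => vTau_ratForm hTG K₀ σ hσ ϖ hϖ.ne_zero _
      (alphaForm_mem_range_ratEmb K₀ _ hx)⟩

end TwoExtForm

end Fermat.Agent.S34.H61
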