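/-
S34 / Program B', leaf L5 (descent with the Galois action), generic half (helper61).

A ring endomorphism `σ` of `F`, semilinear over `σK : K →+* K`, which fixes the base function `x`
and the basis `θ` of a good pair `(K₀, F₀)` (`H8.GoodPair`) and maps `K₀` into itself, maps
`F₀ = ⊕ K₀(x) θ_i` into itself; the restriction `resF σ …` preserves the chart
`H19.chart A₀ x` (integral closure of `A₀[x]` in `F₀`) as soon as `σK` preserves the valuation
ring `A`, and it preserves (resp. acts trivially on the residue field of) the restriction to `F₀`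
of any valuation ring of `F` which `σ` preserves (resp. on whose residue field `σ` acts trivially).
-/
import Fermat.Agent.S18.H8.DescentDefs
import Fermat.Agent.S18.H19.Core2Defs

set_option autoImplicit false

open IntermediateField Polynomial

noncomputable section

namespace Fermat.Agent.S34.H61

open Fermat.Agent.S18

variable {k K : Type*} [Field k] [Field K] [Algebra k K] {F : Type*} [Field F] [Algebra K F]
  (σK : K →+* K) (σ : F →+* F) (hσ : ∀ c : K, σ (algebraMap K F c) = algebraMap K F (σK c))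
  (K₀ : IntermediateField k K) (hK₀ : ∀ c ∈ K₀, σK c ∈ K₀)

include hσ hK₀ in
/-- `σ` maps `K₀(x)` into itself when it fixes `x`. -/
theorem map_mem_adjoin_simple {x : F} (hx : σ x = x) {r : F} (hr : r ∈ K₀⟮x⟯) :
    σ r ∈ K₀⟮x⟯ := by
  induction hr using IntermediateField.adjoin_induction with
  | mem y hy =>
    rw [Set.mem_singleton_iff] at hy
    rw [hy, hx]
    exact IntermediateField.mem_adjoin_simple_self K₀ x
  | algebraMap c =>
    have h1 : algebraMap K₀ F c = algebraMap K F (c : K) := rfl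
    rw [h1, hσ]
    have h2 : algebraMap K F (σK (c : K)) = algebraMap K₀ F ⟨σK (c : K), hK₀ c c.2⟩ := rfl
    rw [h2]
    exact (K₀⟮x⟯).algebraMap_mem _
  | add y z _ _ hy hz =>
    rw [map_add]
    exact add_mem hy hz
  | inv y _ hy =>
    rw [map_inv₀]
    exact inv_mem hy
  | mul y z _ _ hy hz =>
    rw [map_mul]
    exact mul_mem hy hz

variable {x : F} {μ : ℕ} {θ : Fin μ → F} {F₀ : IntermediateField K₀ F}

include hσ hK₀ in
/-- `σ` maps the field `F₀ = ⊕ K₀(x) θ_i` of a good pair into itself when it fixes `x` and the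
`θ_i`. -/
theorem map_mem_of_goodPair (hG : H8.GoodPair x K₀ F₀ θ) (hx : σ x = x)
    (hθ : ∀ i, σ (θ i) = θ i) {f : F} (hf : f ∈ F₀) : σ f ∈ F₀ := by
  obtain ⟨r, rfl⟩ := hG.coord f hf
  rw [map_sum]
  refine sum_mem fun i _ => ?_
  rw [map_mul, hθ]
  refine mul_mem ?_ (hG.theta_mem i)
  have h1 : σ (r i : F) ∈ K₀⟮x⟯ := map_mem_adjoin_simple σK σ hσ K₀ hK₀ hx (r i).2
  have hle : K₀⟮x⟯ ≤ F₀ := by
    rw [IntermediateField.adjoin_simple_le_iff]
    exact hG.x_mem
  exact hle h1

/-- The restriction to `F₀` of a ring endomorphism of `F` mapping `F₀` into itself. -/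
def resF (F₀ : IntermediateField K₀ F) (hF₀ : ∀ f ∈ F₀, σ f ∈ F₀) : F₀ →+* F₀ :=
  (σ.comp (algebraMap F₀ F)).codRestrict F₀.toSubfield (fun f => hF₀ f f.2)

@[simp] theorem coe_resF (hF₀ : ∀ f ∈ F₀, σ f ∈ F₀) (f : F₀) :
    ((resF σ K₀ F₀ hF₀ f : F₀) : F) = σ (f : F) := rfl

section Chart

variable (A : ValuationSubring K) (hA : ∀ a ∈ A, σK a ∈ A)

include hσ hA hK₀ in
/-- The restriction of `σ` to `F₀` preserves the chart (the integral closure of `A₀[x]` in `F₀`,
`A₀ = A ∩ K₀`) when `σK` preserves `A` and `K₀`, and `σ` fixes `x`. -/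
theorem resF_mem_chart (hF₀ : ∀ f ∈ F₀, σ f ∈ F₀) (x₀ : F₀) (hx : σ (x₀ : F) = x₀) (y : F₀) :
    letI := H19.algComap (A.comap (algebraMap K₀ K)) F₀
    y ∈ H19.chart (↥(A.comap (algebraMap K₀ K))) x₀ →
      resF σ K₀ F₀ hF₀ y ∈ H19.chart (↥(A.comap (algebraMap K₀ K))) x₀ := by
  let _ := H19.algComap (A.comap (algebraMap K₀ K)) F₀
  intro hy
  rw [H19.mem_chart_iff] at hy ⊢
  set B : Subalgebra (↥(A.comap (algebraMap K₀ K))) F₀ :=
    Algebra.adjoin (↥(A.comap (algebraMap K₀ K))) ({x₀} : Set F₀) with hB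
  -- `σ` maps `A₀[x₀]` into itself
  have hBmap : ∀ b ∈ B, resF σ K₀ F₀ hF₀ b ∈ B := by
    intro b hb
    induction hb using Algebra.adjoin_induction with
    | mem z hz =>
      rw [Set.mem_singleton_iff] at hz
      have h1 : resF σ K₀ F₀ hF₀ z = x₀ := by
        apply Subtype.ext
        rw [coe_resF, hz, hx]
      rw [h1]
      exact Algebra.subset_adjoin rfl
    | algebraMap a =>
      have ha : σK ((a : K₀) : K) ∈ A := hA _ a.2
      have ha0 : σK ((a : K₀) : K) ∈ K₀ := hK₀ _ (a : K₀).2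
      have h1 : resF σ K₀ F₀ hF₀ (algebraMap (↥(A.comap (algebraMap K₀ K))) F₀ a)
          = algebraMap (↥(A.comap (algebraMap K₀ K))) F₀
              ⟨⟨σK ((a : K₀) : K), ha0⟩, ha⟩ := by
        apply Subtype.ext
        rw [coe_resF]
        exact hσ _
      rw [h1]
      exact Subalgebra.algebraMap_mem _ _
    | add z w _ _ hz hw =>
      rw [map_add]
      exact add_mem hz hw
    | mul z w _ _ hz hw =>
      rw [map_mul]
      exact mul_mem hz hw
  set φ : B →+* B := ((resF σ K₀ F₀ hF₀).comp B.val.toRingHom).codRestrict B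
    (fun b => hBmap b b.2) with hφ
  exact hy.map_of_comp_eq φ (resF σ K₀ F₀ hF₀) (RingHom.ext fun b => rfl)

end Chart

section Valuation

variable (O : ValuationSubring F)

/-- If `σ` preserves the valuation ring `O` of `F`, its restriction preserves `O ∩ F₀`. -/
theorem resF_mem_comap (hF₀ : ∀ f ∈ F₀, σ f ∈ F₀) (hO : ∀ f ∈ O, σ f ∈ O) {y : F₀}
    (hy : y ∈ O.comap (algebraMap F₀ F)) :
    resF σ K₀ F₀ hF₀ y ∈ O.comap (algebraMap F₀ F) :=
  hO _ hy

/-- If `σ` acts trivially on the residue field of `O`, its restriction acts trivially on the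
residue field of `O ∩ F₀`. -/
theorem resF_sub_mem_nonunits_comap (hF₀ : ∀ f ∈ F₀, σ f ∈ F₀)
    (hO : ∀ f ∈ O, σ f - f ∈ O.nonunits) {y : F₀} (hy : y ∈ O.comap (algebraMap F₀ F)) :
    resF σ K₀ F₀ hF₀ y - y ∈ (O.comap (algebraMap F₀ F)).nonunits := by
  have h1 := hO _ hy
  rw [ValuationSubring.mem_nonunits_iff_or] at h1 ⊢
  rcases h1 with h | h
  · left
    apply Subtype.ext
    simpa using h
  · right
    intro hmem
    apply h
    have h2 : ((resF σ K₀ F₀ hF₀ y - y)⁻¹ : F₀) ∈ O.comap (algebraMap F₀ F) := hmem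
    have h3 : algebraMap F₀ F ((resF σ K₀ F₀ hF₀ y - y)⁻¹) ∈ O := h2
    simpa using h3

end Valuation

end Fermat.Agent.S34.H61
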