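import Fermat.Agent.S34.H59.HUnrCross

/-!
# B' (M6b), `hunr` for a general base function with a `j`-relation (helper61)

Second proof of the Hauptmodul half of (X5): carriers `A₀ = A ∩ K₀`, `K = ratForm M K₀`,
`L = ratForm (M * q) K₀` (`K₀` ANY intermediate field with `A ∩ K₀` a discrete valuation ring in
which `q` is a uniformiser), `x : K` a base function with a relation `j(q^M) · d₀ = n₀`,
`n₀ d₀ ∈ S₀ = chart A₀ x` (`x = j(q^M)`: `d₀ = 1`; Hauptmoduln: `d₀ = D(x) = x`).  At an ideal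
`x₀` of `C₀ = chart A₀ (α x)` NOT containing `d₀` (= away from the cusps inside the finite
chart), every prime `Q ⊆ x₀` of `C₀` not containing `q` is unramified over `S₀`.

* `jgen_mem_of_alpha_jtop_mem` : a place of `F_{Mq}` whose valuation ring contains the constants
  `A₀` and `α(j(q^M))` contains `j(τ)`;
* `hunr_ratForm_rel_le` : the statement for ANY algebra structure `S₀ → C₀` restricting `α`;
* `hunr_cross_le_of_rel` : the hypothesis `hunr` of `H68.crossing_regular_of_dsetup_le` /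
  `H68.crossing_regular_ratForm`, verbatim, from the descended setup at level `M`;
* `hunr_cross_le_of_rel_poly` : the same with the relation in polynomial form
  `j(q^M) · D(x) = N(x)`, `N D : ℤ[X]`, and `D(α x) ∉ x₀`;
* `hunr_cross_le_of_rel_X` : the case `D = X` (Hauptmoduln): `α x ∉ x₀`.
-/

set_option autoImplicit false

open IntermediateField ModularCurve AlgebraicCurve Polynomial

noncomputable section

namespace Fermat.Agent.S34.H61

open Fermat.Agent.S18 Fermat.Agent.S18.H74 Fermat.Agent.S18.H19 Fermat.Agent.S34.H19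

section Level

variable (M q : ℕ) [NeZero M] [NeZero q] (K₀ : IntermediateField ℚ Kb)

variable {A₀ : Type*} [CommRing A₀] [Algebra A₀ ↥(ratForm (M * q) K₀)]

/-- A place of `F_{Mq}` whose valuation ring contains the constants `A₀` and `α(j(q^M))`
contains `j(τ)` (chain of modular equations; valuation rings are integrally closed). -/
theorem jgen_mem_of_alpha_jtop_mem (w : Place Kb (FN (M * q)))
    (hA : ∀ a : A₀, ((algebraMap A₀ ↥(ratForm (M * q) K₀) a : ↥(ratForm (M * q) K₀)) :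
      FN (M * q)) ∈ w.toValuationSubring)
    (hα : heckeAlphaBar Kb M q (H28.jtop M) ∈ w.toValuationSubring) :
    Fermat.Agent.S24.jgen (M * q) ∈ w.toValuationSubring := by
  have h1 : (1 : ℕ) * M ∣ M * q := by
    rw [one_mul]
    exact dvd_mul_right M q
  have hmem := H59.jForm_mem_chart (A₀ := A₀) (M * q) K₀ M 1 (one_dvd _) h1
  have hV : H59.jForm (M * q) K₀ (1 * M) h1 ∈
      w.toValuationSubring.comap (algebraMap ↥(ratForm (M * q) K₀) (FN (M * q))) := by
    rw [ValuationSubring.mem_comap]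
    have e : algebraMap ↥(ratForm (M * q) K₀) (FN (M * q)) (H59.jForm (M * q) K₀ (1 * M) h1) =
        heckeAlphaBar Kb M q (H28.jtop M) := by
      rw [H59.heckeAlphaBar_jtop]
      exact congrArg Subtype.val
        (H59.jForm_congr (M * q) K₀ (one_mul M) h1 (dvd_mul_right M q))
    rw [e]
    exact hα
  have h := H72.chart_subset_valuationSubring
    (w.toValuationSubring.comap (algebraMap ↥(ratForm (M * q) K₀) (FN (M * q))))
    (fun a => by
      rw [ValuationSubring.mem_comap]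
      exact hA a) hV _ hmem
  rw [ValuationSubring.mem_comap] at h
  rw [H59.jgen_eq_jFN]
  exact h

end Level

/-! ### The concrete statement, any algebra structure between the charts -/

section Concrete

variable (M q : ℕ) [NeZero M] [NeZero q] (K₀ : IntermediateField ℚ Kb) (A : ValuationSubring Kb)

/-- **`hunr` on the concrete charts for a base function with a `j`-relation, local form.**
Over an unramified base (`q` a uniformiser of `A₀ = A ∩ K₀`), if `Γ₀(M)` has no elliptic element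
and `j(q^M) · d₀ = n₀` with `n₀ d₀ ∈ S₀ = chart A₀ x`: at an ideal `x₀` of `C₀ = chart A₀ j`,
`j = α x`, not containing `d₀`, every prime `Q ⊆ x₀` of `C₀` not containing `q` is unramified
over `S₀` — for ANY algebra structure `S₀ → C₀` restricting `α`. -/
theorem hunr_ratForm_rel_le (hNoEll : Fermat.Agent.S34.H92.NoElliptic M)
    [IsDiscreteValuationRing ↥(A.comap (algebraMap K₀ Kb))]
    (hqA : Irreducible ((q : ℕ) : ↥(A.comap (algebraMap K₀ Kb))))
    (x : ↥(ratForm M K₀)) (j : ↥(ratForm (M * q) K₀))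
    (hj : (j : FN (M * q)) = heckeAlphaBar Kb M q (x : FN M)) :
    letI := algComap (A.comap (algebraMap K₀ Kb)) (ratForm M K₀)
    letI := algComap (A.comap (algebraMap K₀ Kb)) (ratForm (M * q) K₀)
    Transcendental ↥(A.comap (algebraMap K₀ Kb)) x →
    Module.Finite ↥(ratSub ↥(A.comap (algebraMap K₀ Kb)) x) ↥(ratForm M K₀) →
    Transcendental ↥(A.comap (algebraMap K₀ Kb)) j →
    Module.Finite ↥(ratSub ↥(A.comap (algebraMap K₀ Kb)) j) ↥(ratForm (M * q) K₀) →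
    ∀ [Algebra ↥(chart ↥(A.comap (algebraMap K₀ Kb)) x)
      ↥(chart ↥(A.comap (algebraMap K₀ Kb)) j)],
    (∀ s : ↥(chart ↥(A.comap (algebraMap K₀ Kb)) x),
      (((algebraMap ↥(chart ↥(A.comap (algebraMap K₀ Kb)) x)
          ↥(chart ↥(A.comap (algebraMap K₀ Kb)) j) s :
        ↥(chart ↥(A.comap (algebraMap K₀ Kb)) j)) : ↥(ratForm (M * q) K₀)) : FN (M * q)) =
        heckeAlphaBar Kb M q ((s : ↥(ratForm M K₀)) : FN M)) →
    ∀ (n₀ d₀ : ↥(chart ↥(A.comap (algebraMap K₀ Kb)) x)),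
      H28.jtop M * ((d₀ : ↥(ratForm M K₀)) : FN M) = ((n₀ : ↥(ratForm M K₀)) : FN M) →
    ∀ x₀ : Ideal ↥(chart ↥(A.comap (algebraMap K₀ Kb)) j),
      algebraMap ↥(chart ↥(A.comap (algebraMap K₀ Kb)) x)
        ↥(chart ↥(A.comap (algebraMap K₀ Kb)) j) d₀ ∉ x₀ →
    ∀ Q : Ideal ↥(chart ↥(A.comap (algebraMap K₀ Kb)) j), Q.IsPrime →
      ((q : ℕ) : ↥(chart ↥(A.comap (algebraMap K₀ Kb)) j)) ∉ Q → Q ≤ x₀ → ∀ a ∈ Q, ∃ b ∉ Q,
      b * a ∈ Ideal.map
        (algebraMap ↥(chart ↥(A.comap (algebraMap K₀ Kb)) x)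
          ↥(chart ↥(A.comap (algebraMap K₀ Kb)) j))
        (Q.comap (algebraMap ↥(chart ↥(A.comap (algebraMap K₀ Kb)) x)
          ↥(chart ↥(A.comap (algebraMap K₀ Kb)) j))) := by
  letI algM := algComap (A.comap (algebraMap K₀ Kb)) (ratForm M K₀)
  letI algN := algComap (A.comap (algebraMap K₀ Kb)) (ratForm (M * q) K₀)
  intro htr hfin htr' hfin' inst hcompat n₀ d₀ hrel x₀ hd Q hQ hqQ hQx
  haveI : FaithfulSMul ↥(A.comap (algebraMap K₀ Kb)) ↥(ratForm M K₀) :=
    Fermat.Agent.S34.H78.faithfulSMul_comap A K₀ (ratForm M K₀)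
  haveI : FaithfulSMul ↥(A.comap (algebraMap K₀ Kb)) ↥(ratForm (M * q) K₀) :=
    Fermat.Agent.S34.H78.faithfulSMul_comap A K₀ (ratForm (M * q) K₀)
  haveI : IsScalarTower ↥(A.comap (algebraMap K₀ Kb)) ↥K₀ ↥(ratForm (M * q) K₀) :=
    IsScalarTower.of_algebraMap_eq fun _ => rfl
  haveI : FiniteDimensional Kb⟮Fermat.Agent.S24.jgen (M * q)⟯ (FN (M * q)) :=
    Fermat.Agent.S18.H55.finiteDimensional_jgen (M * q)
  refine H59.hunr_chart_le K₀ (ratForm M K₀) (ratForm (M * q) K₀) q hqA x htr hfin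
    j htr' hfin' ((heckeAlphaBar Kb M q : FN M →ₐ[Kb] FN (M * q)) : FN M →+* FN (M * q))
    (fun a => (heckeAlphaBar Kb M q).commutes (((a : K₀) : Kb))) hj.symm hcompat
    (Fermat.Agent.S24.jgen (M * q)) (ratForm_closure_eq_top M K₀)
    (x₀.comap (algebraMap ↥(chart ↥(A.comap (algebraMap K₀ Kb)) x)
      ↥(chart ↥(A.comap (algebraMap K₀ Kb)) j))) ?_ Q hQ hqQ (Ideal.comap_mono hQx)
  -- `he`
  intro Q' hQ' _ hQ's w hw hcentre
  -- `d₀ ∉ Q'`
  have hdQ : algebraMap ↥(chart ↥(A.comap (algebraMap K₀ Kb)) x)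
      ↥(chart ↥(A.comap (algebraMap K₀ Kb)) j) d₀ ∉ Q' := fun hmem =>
    hd (Ideal.mem_comap.1 (hQ's (Ideal.mem_comap.2 hmem)))
  have hd0 : algebraMap ↥(chart ↥(A.comap (algebraMap K₀ Kb)) x)
      ↥(chart ↥(A.comap (algebraMap K₀ Kb)) j) d₀ ≠ 0 := fun h0 => hdQ (h0 ▸ Q'.zero_mem)
  have hdw := hw _ (algebraMap ↥(chart ↥(A.comap (algebraMap K₀ Kb)) x)
      ↥(chart ↥(A.comap (algebraMap K₀ Kb)) j) d₀).2
  have hnw := hw _ (algebraMap ↥(chart ↥(A.comap (algebraMap K₀ Kb)) x)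
      ↥(chart ↥(A.comap (algebraMap K₀ Kb)) j) n₀).2
  have hord := (hcentre _ hd0).not.1 hdQ
  rw [hcompat] at hdw hnw hord
  -- `α d₀ ≠ 0`
  have hαd0 : heckeAlphaBar Kb M q ((d₀ : ↥(ratForm M K₀)) : FN M) ≠ 0 := by
    intro h0
    apply hd0
    apply Subtype.ext
    apply Subtype.ext
    rw [hcompat, h0]
    rfl
  have hord0 : w.ord (heckeAlphaBar Kb M q ((d₀ : ↥(ratForm M K₀)) : FN M)) = 0 := by
    have h1 := (Fermat.Agent.S24.H52.mem_iff_ord_nonneg w hαd0).1 hdw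
    omega
  have hinv : (heckeAlphaBar Kb M q ((d₀ : ↥(ratForm M K₀)) : FN M))⁻¹ ∈
      w.toValuationSubring := by
    rw [Fermat.Agent.S24.H52.mem_iff_ord_nonneg w (inv_ne_zero hαd0), w.ord_inv, hord0]
    exact le_of_eq neg_zero.symm
  -- `α (j(q^M)) ∈ O_w`
  have hαj : heckeAlphaBar Kb M q (H28.jtop M) ∈ w.toValuationSubring := by
    have e : heckeAlphaBar Kb M q (H28.jtop M) =
        heckeAlphaBar Kb M q ((n₀ : ↥(ratForm M K₀)) : FN M) *
          (heckeAlphaBar Kb M q ((d₀ : ↥(ratForm M K₀)) : FN M))⁻¹ := by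
      rw [eq_mul_inv_iff_mul_eq₀ hαd0, ← map_mul, hrel]
    rw [e]
    exact w.toValuationSubring.mul_mem _ _ hnw hinv
  have hjw := jgen_mem_of_alpha_jtop_mem M q K₀
    (A₀ := ↥(A.comap (algebraMap K₀ Kb))) w
    (fun a => hw _ (Subalgebra.algebraMap_mem _ a)) hαj
  exact Fermat.Agent.S34.H60.exists_place_ord_alpha_eq M q hNoEll w hjw

end Concrete

/-! ### The statement in the vocabulary of `H68.crossing_regular_of_dsetup_le` -/

section Cross

variable (M q : ℕ) [NeZero M] [NeZero q] (K₀ : IntermediateField ℚ Kb) (A : ValuationSubring Kb)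

/-- **`hunr` of `H68.crossing_regular_of_dsetup_le` for a base function with a `j`-relation**
(polynomial-free form): `x : ratForm M K₀` with its descended setup, `n₀ d₀ ∈ S₀ = chart A₀ x`
with `j(q^M) · d₀ = n₀`, and `x₀` an ideal of `C₀ = chart A₀ (α x)` not containing `d₀`. -/
theorem hunr_cross_le_of_rel (hq : q.Prime) (hqM : ¬ q ∣ M)
    (hNoEll : Fermat.Agent.S34.H92.NoElliptic M)
    [IsDiscreteValuationRing ↥(A.comap (algebraMap K₀ Kb))]
    (hqA : Irreducible ((q : ℕ) : ↥(A.comap (algebraMap K₀ Kb))))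
    (x : ↥(ratForm M K₀)) :
    letI := algComap (A.comap (algebraMap K₀ Kb)) (ratForm M K₀)
    letI := algComap (A.comap (algebraMap K₀ Kb)) (ratForm (M * q) K₀)
    letI := algAlpha M q K₀
    haveI := isScalarTower_algAlpha M q K₀ A
    ∀ O₀ : ValuationSubring ↥(ratForm M K₀),
    DSetup ↥(A.comap (algebraMap K₀ Kb)) O₀ x →
    ∀ (n₀ d₀ : ↥(chart ↥(A.comap (algebraMap K₀ Kb)) x)),
      H28.jtop M * ((d₀ : ↥(ratForm M K₀)) : FN M) = ((n₀ : ↥(ratForm M K₀)) : FN M) →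
    ∀ x₀ : Ideal ↥(chart ↥(A.comap (algebraMap K₀ Kb))
        (algebraMap ↥(ratForm M K₀) ↥(ratForm (M * q) K₀) x)),
      H68.chartMap (A₀ := ↥(A.comap (algebraMap K₀ Kb))) (L := ↥(ratForm (M * q) K₀)) x d₀ ∉ x₀ →
    ∀ Q : Ideal ↥(chart ↥(A.comap (algebraMap K₀ Kb))
        (algebraMap ↥(ratForm M K₀) ↥(ratForm (M * q) K₀) x)), Q.IsPrime →
      ((q : ℕ) : ↥(chart ↥(A.comap (algebraMap K₀ Kb))
        (algebraMap ↥(ratForm M K₀) ↥(ratForm (M * q) K₀) x))) ∉ Q → Q ≤ x₀ →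
      ∀ a ∈ Q, ∃ b ∉ Q,
        b * a ∈ Ideal.map
          (H68.chartMap (A₀ := ↥(A.comap (algebraMap K₀ Kb))) (L := ↥(ratForm (M * q) K₀)) x)
          (Q.comap (H68.chartMap (A₀ := ↥(A.comap (algebraMap K₀ Kb)))
            (L := ↥(ratForm (M * q) K₀)) x)) := by
  letI algM := algComap (A.comap (algebraMap K₀ Kb)) (ratForm M K₀)
  letI algN := algComap (A.comap (algebraMap K₀ Kb)) (ratForm (M * q) K₀)
  letI algKL := algAlpha M q K₀
  haveI tow := isScalarTower_algAlpha M q K₀ A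
  intro O₀ hS n₀ d₀ hrel x₀ hd
  have htr := hS.transc
  have hfin := hS.finite
  have htr' := @transcendental_top ↥(A.comap (algebraMap K₀ Kb)) ↥(ratForm M K₀)
    ↥(ratForm (M * q) K₀) _ _ _ algM algN algKL tow x htr
  have hfin' := @finite_ratSub_top ↥(A.comap (algebraMap K₀ Kb)) ↥(ratForm M K₀)
    ↥(ratForm (M * q) K₀) _ _ _ algM algN algKL tow x hfin
    (H59.finite_alphaForm M q K₀ hq hqM)
  letI algSC := H68.chartAlgTop (A₀ := ↥(A.comap (algebraMap K₀ Kb)))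
    (L := ↥(ratForm (M * q) K₀)) x
  exact hunr_ratForm_rel_le M q K₀ A hNoEll hqA x
    (algebraMap ↥(ratForm M K₀) ↥(ratForm (M * q) K₀) x) rfl htr hfin htr' hfin'
    (fun _ => rfl) n₀ d₀ hrel x₀ hd

/-- **`hunr` of `H68.crossing_regular_of_dsetup_le`, polynomial form of the relation**:
`j(q^M) · D(x) = N(x)` in `F_M` with `N D : ℤ[X]` (`x = j(q^M)`: `N = X`, `D = 1`; Hauptmoduln:
`D = X`), and `D(α x) ∉ x₀`. -/
theorem hunr_cross_le_of_rel_poly (hq : q.Prime) (hqM : ¬ q ∣ M)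
    (hNoEll : Fermat.Agent.S34.H92.NoElliptic M)
    [IsDiscreteValuationRing ↥(A.comap (algebraMap K₀ Kb))]
    (hqA : Irreducible ((q : ℕ) : ↥(A.comap (algebraMap K₀ Kb))))
    (x : ↥(ratForm M K₀)) (N D : Polynomial ℤ)
    (hrel : H28.jtop M * Polynomial.aeval (x : FN M) D = Polynomial.aeval (x : FN M) N) :
    letI := algComap (A.comap (algebraMap K₀ Kb)) (ratForm M K₀)
    letI := algComap (A.comap (algebraMap K₀ Kb)) (ratForm (M * q) K₀)
    letI := algAlpha M q K₀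
    haveI := isScalarTower_algAlpha M q K₀ A
    ∀ O₀ : ValuationSubring ↥(ratForm M K₀),
    DSetup ↥(A.comap (algebraMap K₀ Kb)) O₀ x →
    ∀ x₀ : Ideal ↥(chart ↥(A.comap (algebraMap K₀ Kb))
        (algebraMap ↥(ratForm M K₀) ↥(ratForm (M * q) K₀) x)),
      Polynomial.aeval (⟨algebraMap ↥(ratForm M K₀) ↥(ratForm (M * q) K₀) x,
        self_mem_chart ↥(A.comap (algebraMap K₀ Kb)) _⟩ :
        ↥(chart ↥(A.comap (algebraMap K₀ Kb))
          (algebraMap ↥(ratForm M K₀) ↥(ratForm (M * q) K₀) x))) D ∉ x₀ →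
    ∀ Q : Ideal ↥(chart ↥(A.comap (algebraMap K₀ Kb))
        (algebraMap ↥(ratForm M K₀) ↥(ratForm (M * q) K₀) x)), Q.IsPrime →
      ((q : ℕ) : ↥(chart ↥(A.comap (algebraMap K₀ Kb))
        (algebraMap ↥(ratForm M K₀) ↥(ratForm (M * q) K₀) x))) ∉ Q → Q ≤ x₀ →
      ∀ a ∈ Q, ∃ b ∉ Q,
        b * a ∈ Ideal.map
          (H68.chartMap (A₀ := ↥(A.comap (algebraMap K₀ Kb))) (L := ↥(ratForm (M * q) K₀)) x)
          (Q.comap (H68.chartMap (A₀ := ↥(A.comap (algebraMap K₀ Kb)))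
            (L := ↥(ratForm (M * q) K₀)) x)) := by
  letI algM := algComap (A.comap (algebraMap K₀ Kb)) (ratForm M K₀)
  letI algN := algComap (A.comap (algebraMap K₀ Kb)) (ratForm (M * q) K₀)
  letI algKL := algAlpha M q K₀
  haveI tow := isScalarTower_algAlpha M q K₀ A
  intro O₀ hS x₀ hD
  -- the ring homomorphism `S₀ → F_M`
  let ψ : ↥(chart ↥(A.comap (algebraMap K₀ Kb)) x) →+* FN M :=
    (algebraMap ↥(ratForm M K₀) (FN M)).comp
      (chart ↥(A.comap (algebraMap K₀ Kb)) x).toSubring.subtype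
  have hψ : ∀ P : Polynomial ℤ,
      ((Polynomial.aeval (⟨x, self_mem_chart ↥(A.comap (algebraMap K₀ Kb)) x⟩ :
        ↥(chart ↥(A.comap (algebraMap K₀ Kb)) x)) P : ↥(chart ↥(A.comap (algebraMap K₀ Kb)) x)) :
          ↥(ratForm M K₀)) = Polynomial.aeval x P := fun P =>
    (Polynomial.aeval_algHom_apply
      ((chart ↥(A.comap (algebraMap K₀ Kb)) x).toSubring.subtype.toIntAlgHom)
      (⟨x, self_mem_chart ↥(A.comap (algebraMap K₀ Kb)) x⟩ :
        ↥(chart ↥(A.comap (algebraMap K₀ Kb)) x)) P).symm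
  have hψ' : ∀ P : Polynomial ℤ,
      ((Polynomial.aeval x P : ↥(ratForm M K₀)) : FN M) = Polynomial.aeval (x : FN M) P :=
    fun P => (Polynomial.aeval_algHom_apply
      ((algebraMap ↥(ratForm M K₀) (FN M)).toIntAlgHom) x P).symm
  have hχ : ∀ P : Polynomial ℤ,
      H68.chartMap (A₀ := ↥(A.comap (algebraMap K₀ Kb))) (L := ↥(ratForm (M * q) K₀)) x
        (Polynomial.aeval (⟨x, self_mem_chart ↥(A.comap (algebraMap K₀ Kb)) x⟩ :
          ↥(chart ↥(A.comap (algebraMap K₀ Kb)) x)) P) =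
        Polynomial.aeval (⟨algebraMap ↥(ratForm M K₀) ↥(ratForm (M * q) K₀) x,
          self_mem_chart ↥(A.comap (algebraMap K₀ Kb)) _⟩ :
          ↥(chart ↥(A.comap (algebraMap K₀ Kb))
            (algebraMap ↥(ratForm M K₀) ↥(ratForm (M * q) K₀) x))) P := fun P =>
    (Polynomial.aeval_algHom_apply
      ((H68.chartMap (A₀ := ↥(A.comap (algebraMap K₀ Kb)))
        (L := ↥(ratForm (M * q) K₀)) x).toIntAlgHom)
      (⟨x, self_mem_chart ↥(A.comap (algebraMap K₀ Kb)) x⟩ :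
        ↥(chart ↥(A.comap (algebraMap K₀ Kb)) x)) P).symm
  refine hunr_cross_le_of_rel M q K₀ A hq hqM hNoEll hqA x O₀ hS
    (Polynomial.aeval (⟨x, self_mem_chart ↥(A.comap (algebraMap K₀ Kb)) x⟩ :
      ↥(chart ↥(A.comap (algebraMap K₀ Kb)) x)) N)
    (Polynomial.aeval (⟨x, self_mem_chart ↥(A.comap (algebraMap K₀ Kb)) x⟩ :
      ↥(chart ↥(A.comap (algebraMap K₀ Kb)) x)) D) ?_ x₀ ?_
  · rw [hψ, hψ, hψ', hψ']
    exact hrel
  · rw [hχ]
    exact hD

/-- **`hunr` of `H68.crossing_regular_of_dsetup_le` for a Hauptmodul** (`D = X`):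
`j(q^M) · x = N(x)`, and `α x ∉ x₀` (the point is not a cusp of the finite chart). -/
theorem hunr_cross_le_of_rel_X (hq : q.Prime) (hqM : ¬ q ∣ M)
    (hNoEll : Fermat.Agent.S34.H92.NoElliptic M)
    [IsDiscreteValuationRing ↥(A.comap (algebraMap K₀ Kb))]
    (hqA : Irreducible ((q : ℕ) : ↥(A.comap (algebraMap K₀ Kb))))
    (x : ↥(ratForm M K₀)) (N : Polynomial ℤ)
    (hrel : H28.jtop M * Polynomial.aeval (x : FN M) (Polynomial.X : Polynomial ℤ) =
      Polynomial.aeval (x : FN M) N) :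
    letI := algComap (A.comap (algebraMap K₀ Kb)) (ratForm M K₀)
    letI := algComap (A.comap (algebraMap K₀ Kb)) (ratForm (M * q) K₀)
    letI := algAlpha M q K₀
    haveI := isScalarTower_algAlpha M q K₀ A
    ∀ O₀ : ValuationSubring ↥(ratForm M K₀),
    DSetup ↥(A.comap (algebraMap K₀ Kb)) O₀ x →
    ∀ x₀ : Ideal ↥(chart ↥(A.comap (algebraMap K₀ Kb))
        (algebraMap ↥(ratForm M K₀) ↥(ratForm (M * q) K₀) x)),
      (⟨algebraMap ↥(ratForm M K₀) ↥(ratForm (M * q) K₀) x,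
        self_mem_chart ↥(A.comap (algebraMap K₀ Kb)) _⟩ :
        ↥(chart ↥(A.comap (algebraMap K₀ Kb))
          (algebraMap ↥(ratForm M K₀) ↥(ratForm (M * q) K₀) x))) ∉ x₀ →
    ∀ Q : Ideal ↥(chart ↥(A.comap (algebraMap K₀ Kb))
        (algebraMap ↥(ratForm M K₀) ↥(ratForm (M * q) K₀) x)), Q.IsPrime →
      ((q : ℕ) : ↥(chart ↥(A.comap (algebraMap K₀ Kb))
        (algebraMap ↥(ratForm M K₀) ↥(ratForm (M * q) K₀) x))) ∉ Q → Q ≤ x₀ →
      ∀ a ∈ Q, ∃ b ∉ Q,
        b * a ∈ Ideal.map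
          (H68.chartMap (A₀ := ↥(A.comap (algebraMap K₀ Kb))) (L := ↥(ratForm (M * q) K₀)) x)
          (Q.comap (H68.chartMap (A₀ := ↥(A.comap (algebraMap K₀ Kb)))
            (L := ↥(ratForm (M * q) K₀)) x)) := by
  letI algM := algComap (A.comap (algebraMap K₀ Kb)) (ratForm M K₀)
  letI algN := algComap (A.comap (algebraMap K₀ Kb)) (ratForm (M * q) K₀)
  letI algKL := algAlpha M q K₀
  haveI tow := isScalarTower_algAlpha M q K₀ A
  intro O₀ hS x₀ hx₀
  refine hunr_cross_le_of_rel_poly M q K₀ A hq hqM hNoEll hqA x N Polynomial.X hrel O₀ hS x₀ ?_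
  rw [Polynomial.aeval_X]
  exact hx₀

end Cross

end Fermat.Agent.S34.H61
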