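/-
S34 / Program B' helper (helper61), leaf L4-CORE: the local computation at a closed point of the
special fibre.  Mathlib-only.

* `satIdeal ϖ c` : the `ϖ`-saturation `{r | ∃ n, ϖ ^ n * r ∈ (c)}` of the principal ideal `(c)`.
* `eq_satIdeal_of_prime` (CORE) : in a noetherian local ring, if `𝔪 ≤ satIdeal ϖ c + (ϖ)` then
  every prime `𝔭 ∋ c` with `ϖ ∉ 𝔭` IS `satIdeal ϖ c`.
* `node_gen` (NODE), `smooth_gen` (SMOOTH) : the generation hypothesis of (CORE) at a node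
  `𝔪 = (J, b, ϖ)`, `c = b - ξ`, and at a smooth point `𝔪 = (ϖ, t)`, `c = t - ξ`.
* `exists_mul_eq_of_pos` (V1), `val_eq_one` (V2), `val_unique` (V3) : consequences for an additive
  valuation `o` of the fraction field that is `≥ 0` on the local ring, `0` at `ϖ`, positive at `c`.
-/
import Mathlib

set_option autoImplicit false

namespace Fermat.Agent.S34.H61

open IsLocalRing

section Sat

variable {Λ : Type*} [CommRing Λ]

/-- The `ϖ`-saturation of the principal ideal `(c)`. -/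
def satIdeal (ϖ c : Λ) : Ideal Λ where
  carrier := {r | ∃ n : ℕ, ϖ ^ n * r ∈ Ideal.span {c}}
  add_mem' := by
    rintro a b ⟨n, hn⟩ ⟨m, hm⟩
    refine ⟨n + m, ?_⟩
    have h : ϖ ^ (n + m) * (a + b) = ϖ ^ m * (ϖ ^ n * a) + ϖ ^ n * (ϖ ^ m * b) := by ring
    rw [h]
    exact Ideal.add_mem _ (Ideal.mul_mem_left _ _ hn) (Ideal.mul_mem_left _ _ hm)
  zero_mem' := ⟨0, by simp⟩
  smul_mem' := by
    rintro x a ⟨n, hn⟩
    refine ⟨n, ?_⟩
    have h : ϖ ^ n * (x • a) = x * (ϖ ^ n * a) := by rw [smul_eq_mul]; ring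
    rw [h]
    exact Ideal.mul_mem_left _ _ hn

theorem mem_satIdeal {ϖ c r : Λ} :
    r ∈ satIdeal ϖ c ↔ ∃ n : ℕ, ϖ ^ n * r ∈ Ideal.span {c} := Iff.rfl

theorem mem_satIdeal' {ϖ c r : Λ} :
    r ∈ satIdeal ϖ c ↔ ∃ (n : ℕ) (s : Λ), ϖ ^ n * r = c * s := by
  rw [mem_satIdeal]
  refine exists_congr fun n => ?_
  rw [Ideal.mem_span_singleton']
  constructor
  · rintro ⟨s, hs⟩; exact ⟨s, by rw [← hs]; ring⟩
  · rintro ⟨s, hs⟩; exact ⟨s, by rw [hs]; ring⟩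

theorem self_mem_satIdeal (ϖ c : Λ) : c ∈ satIdeal ϖ c :=
  ⟨0, by simp [Ideal.mem_span_singleton_self c]⟩

theorem span_le_satIdeal (ϖ c : Λ) : Ideal.span {c} ≤ satIdeal ϖ c :=
  (Ideal.span_singleton_le_iff_mem _).mpr (self_mem_satIdeal ϖ c)

theorem satIdeal_le_of_prime {ϖ c : Λ} (𝔭 : Ideal Λ) [h𝔭 : 𝔭.IsPrime] (hc : c ∈ 𝔭)
    (hϖ : ϖ ∉ 𝔭) : satIdeal ϖ c ≤ 𝔭 := by
  rintro r ⟨n, hn⟩
  have h1 : ϖ ^ n * r ∈ 𝔭 := ((Ideal.span_singleton_le_iff_mem _).mpr hc) hn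
  rcases h𝔭.mem_or_mem h1 with h | h
  · exact absurd (h𝔭.mem_of_pow_mem n h) hϖ
  · exact h

/-- (CORE) In a noetherian local ring with `𝔪 ≤ satIdeal ϖ c + (ϖ)`, every prime ideal containing
`c` but not `ϖ` equals `satIdeal ϖ c`. -/
theorem eq_satIdeal_of_prime [IsNoetherianRing Λ] [IsLocalRing Λ] {ϖ c : Λ}
    (hϖm : ϖ ∈ maximalIdeal Λ)
    (hgen : maximalIdeal Λ ≤ satIdeal ϖ c ⊔ Ideal.span {ϖ})
    (𝔭 : Ideal Λ) [h𝔭 : 𝔭.IsPrime] (hc : c ∈ 𝔭) (hϖ : ϖ ∉ 𝔭) :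
    𝔭 = satIdeal ϖ c := by
  have hle := satIdeal_le_of_prime 𝔭 hc hϖ
  refine le_antisymm ?_ hle
  have hstep : ∀ n : ℕ, ∀ r ∈ 𝔭, ∃ s ∈ satIdeal ϖ c, ∃ r' ∈ 𝔭, r = s + ϖ ^ n * r' := by
    intro n
    induction n with
    | zero => intro r hr; exact ⟨0, zero_mem _, r, hr, by simp⟩
    | succ n ih =>
      intro r hr
      obtain ⟨s, hs, r', hr', rfl⟩ := ih r hr
      have hr'm : r' ∈ maximalIdeal Λ := le_maximalIdeal h𝔭.ne_top hr'
      obtain ⟨s', hs', y, hy, hsum⟩ := Submodule.mem_sup.mp (hgen hr'm)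
      obtain ⟨r'', rfl⟩ := Ideal.mem_span_singleton'.mp hy
      have h1 : r'' * ϖ ∈ 𝔭 := by
        have h : r'' * ϖ = r' - s' := by rw [← hsum]; ring
        rw [h]; exact Ideal.sub_mem _ hr' (hle hs')
      have h2 : r'' ∈ 𝔭 := (h𝔭.mem_or_mem h1).resolve_right hϖ
      refine ⟨s + ϖ ^ n * s', Ideal.add_mem _ hs (Ideal.mul_mem_left _ _ hs'), r'', h2, ?_⟩
      rw [← hsum]; ring
  intro r hr
  have hS : satIdeal ϖ c ≠ ⊤ := fun h => h𝔭.ne_top (top_le_iff.mp (h ▸ hle))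
  have hnt : Nontrivial (Λ ⧸ satIdeal ϖ c) := Ideal.Quotient.nontrivial_iff.mpr hS
  have hloc : IsLocalRing (Λ ⧸ satIdeal ϖ c) :=
    IsLocalRing.of_surjective' (Ideal.Quotient.mk (satIdeal ϖ c)) Ideal.Quotient.mk_surjective
  have hI : Ideal.span {Ideal.Quotient.mk (satIdeal ϖ c) ϖ} ≠ ⊤ := by
    intro h
    rw [Ideal.span_singleton_eq_top] at h
    obtain ⟨u, hu⟩ := h
    obtain ⟨y, hy⟩ := Ideal.Quotient.mk_surjective (↑u⁻¹ : Λ ⧸ satIdeal ϖ c)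
    have h1 : Ideal.Quotient.mk (satIdeal ϖ c) (ϖ * y - 1) = 0 := by
      rw [map_sub, map_mul, hy, ← hu, Units.mul_inv, map_one, sub_self]
    have h2 : ϖ * y - 1 ∈ maximalIdeal Λ :=
      le_maximalIdeal h𝔭.ne_top (hle (Ideal.Quotient.eq_zero_iff_mem.mp h1))
    have h3 : (1 : Λ) ∈ maximalIdeal Λ := by
      have h : (1 : Λ) = ϖ * y - (ϖ * y - 1) := by ring
      rw [h]; exact Ideal.sub_mem _ (Ideal.mul_mem_right _ _ hϖm) h2
    exact (Ideal.ne_top_iff_one _).mp (maximalIdeal.isMaximal Λ).ne_top h3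
  have hK := Ideal.iInf_pow_eq_bot_of_isLocalRing _ hI
  have hmem : Ideal.Quotient.mk (satIdeal ϖ c) r ∈
      ⨅ i : ℕ, Ideal.span {Ideal.Quotient.mk (satIdeal ϖ c) ϖ} ^ i := by
    rw [Ideal.mem_iInf]; intro n
    obtain ⟨s, hs, r', -, rfl⟩ := hstep n r hr
    rw [map_add, Ideal.Quotient.eq_zero_iff_mem.mpr hs, zero_add, map_mul, map_pow,
      Ideal.span_singleton_pow]
    exact Ideal.mul_mem_right _ _ (Ideal.mem_span_singleton_self _)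
  rw [hK] at hmem
  exact Ideal.Quotient.eq_zero_iff_mem.mp hmem

/-- (NODE) At a node `𝔪 = (J, b, ϖ)` with `J * b = ξ * ζ`, `ϖ ∣ ξ`, `ϖ ∣ ζ`, `ξ ∣ ϖ ^ k`: the
generation hypothesis of (CORE) holds for `c = b - ξ`. -/
theorem node_gen [IsLocalRing Λ] {J b ϖ ξ ζ : Λ}
    (hm : maximalIdeal Λ = Ideal.span {J, b, ϖ}) (hξ : ϖ ∣ ξ) (hζ : ϖ ∣ ζ)
    (hprod : ξ * ζ = J * b) (hk : ∃ k : ℕ, ξ ∣ ϖ ^ k) :
    maximalIdeal Λ ≤ satIdeal ϖ (b - ξ) ⊔ Ideal.span {ϖ} := by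
  have hϖ : ϖ ∈ satIdeal ϖ (b - ξ) ⊔ Ideal.span {ϖ} :=
    Ideal.mem_sup_right (Ideal.mem_span_singleton_self ϖ)
  have hdv : ∀ x : Λ, ϖ ∣ x → x ∈ satIdeal ϖ (b - ξ) ⊔ Ideal.span {ϖ} := fun x hx =>
    Ideal.mem_sup_right (Ideal.mem_span_singleton.mpr hx)
  rw [hm, Ideal.span_le]
  rintro x hx
  simp only [Set.mem_insert_iff, Set.mem_singleton_iff] at hx
  rcases hx with rfl | rfl | rfl
  · -- `J = (J - ζ) + ζ`
    obtain ⟨k, e, he⟩ := hk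
    have h1 : x - ζ ∈ satIdeal ϖ (b - ξ) := by
      rw [mem_satIdeal']
      refine ⟨k, -(e * x), ?_⟩
      rw [he]
      have h : ξ * e * (x - ζ) = e * (ξ * x) - e * (ξ * ζ) := by ring
      rw [h, hprod]; ring
    have h2 : x = (x - ζ) + ζ := by ring
    rw [h2]
    exact Ideal.add_mem _ (Ideal.mem_sup_left h1) (hdv ζ hζ)
  · -- `b = (b - ξ) + ξ`
    have h3 : (x - ξ) + ξ ∈ satIdeal ϖ (x - ξ) ⊔ Ideal.span {ϖ} :=
      Ideal.add_mem _ (Ideal.mem_sup_left (self_mem_satIdeal ϖ (x - ξ))) (hdv ξ hξ)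
    simpa using h3
  · exact hϖ

/-- (SMOOTH) At a smooth point `𝔪 = (ϖ, t)` with `ϖ ∣ ξ`: the generation hypothesis of (CORE) holds
for `c = t - ξ`. -/
theorem smooth_gen [IsLocalRing Λ] {ϖ t ξ : Λ}
    (hm : maximalIdeal Λ = Ideal.span {ϖ, t}) (hξ : ϖ ∣ ξ) :
    maximalIdeal Λ ≤ satIdeal ϖ (t - ξ) ⊔ Ideal.span {ϖ} := by
  rw [hm, Ideal.span_le]
  rintro x hx
  simp only [Set.mem_insert_iff, Set.mem_singleton_iff] at hx
  rcases hx with rfl | rfl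
  · exact Ideal.mem_sup_right (Ideal.mem_span_singleton_self x)
  · have h3 : (x - ξ) + ξ ∈ satIdeal ϖ (x - ξ) ⊔ Ideal.span {ϖ} :=
      Ideal.add_mem _ (Ideal.mem_sup_left (self_mem_satIdeal ϖ (x - ξ)))
        (Ideal.mem_sup_right (Ideal.mem_span_singleton.mpr hξ))
    simpa using h3

end Sat

section Val

variable {Λ F₀ : Type*} [CommRing Λ] [Field F₀] [Algebra Λ F₀] [IsFractionRing Λ F₀]

theorem algebraMap_ne_zero' {r : Λ} (hr : r ≠ 0) : algebraMap Λ F₀ r ≠ 0 := fun h =>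
  hr ((IsFractionRing.injective Λ F₀) (by rw [h, map_zero]))

omit [IsFractionRing Λ F₀] [CommRing Λ] [Algebra Λ F₀] in
theorem val_one (o : F₀ → ℤ) (hmul : ∀ x y : F₀, x ≠ 0 → y ≠ 0 → o (x * y) = o x + o y) :
    o 1 = 0 := by
  have h := hmul 1 1 one_ne_zero one_ne_zero
  rw [mul_one] at h
  omega

variable [IsDomain Λ]

/-- The centre on `Λ` of an additive valuation of `F₀` that is `≥ 0` on `Λ` is a prime ideal. -/
theorem exists_valCenter (o : F₀ → ℤ)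
    (hadd : ∀ x y : F₀, x ≠ 0 → y ≠ 0 → x + y ≠ 0 → min (o x) (o y) ≤ o (x + y))
    (hmul : ∀ x y : F₀, x ≠ 0 → y ≠ 0 → o (x * y) = o x + o y)
    (hnn : ∀ r : Λ, r ≠ 0 → 0 ≤ o (algebraMap Λ F₀ r)) :
    ∃ 𝔭 : Ideal Λ, 𝔭.IsPrime ∧ ∀ r : Λ, r ∈ 𝔭 ↔ (r = 0 ∨ 0 < o (algebraMap Λ F₀ r)) := by
  have hadd' : ∀ a b : Λ, (a = 0 ∨ 0 < o (algebraMap Λ F₀ a)) →
      (b = 0 ∨ 0 < o (algebraMap Λ F₀ b)) → (a + b = 0 ∨ 0 < o (algebraMap Λ F₀ (a + b))) := by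
    rintro a b ha hb
    by_cases hab : a + b = 0
    · exact Or.inl hab
    by_cases ha0 : a = 0
    · subst ha0; rw [zero_add]; exact hb
    by_cases hb0 : b = 0
    · subst hb0; rw [add_zero]; exact ha
    have ha' : 0 < o (algebraMap Λ F₀ a) := ha.resolve_left ha0
    have hb' : 0 < o (algebraMap Λ F₀ b) := hb.resolve_left hb0
    right
    have h := hadd _ _ (algebraMap_ne_zero' (F₀ := F₀) ha0) (algebraMap_ne_zero' (F₀ := F₀) hb0)
      (by rw [← map_add]; exact algebraMap_ne_zero' hab)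
    rw [← map_add] at h
    exact lt_of_lt_of_le (lt_min ha' hb') h
  have hsmul' : ∀ x a : Λ, (a = 0 ∨ 0 < o (algebraMap Λ F₀ a)) →
      (x • a = 0 ∨ 0 < o (algebraMap Λ F₀ (x • a))) := by
    rintro x a ha
    by_cases hxa : x • a = 0
    · exact Or.inl hxa
    have hx0 : x ≠ 0 := by rintro rfl; exact hxa (zero_smul _ _)
    have ha0 : a ≠ 0 := by rintro rfl; exact hxa (smul_zero _)
    have ha' : 0 < o (algebraMap Λ F₀ a) := ha.resolve_left ha0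
    right
    rw [smul_eq_mul, map_mul, hmul _ _ (algebraMap_ne_zero' hx0) (algebraMap_ne_zero' ha0)]
    have := hnn x hx0
    omega
  let 𝔭 : Ideal Λ :=
    { carrier := {r | r = 0 ∨ 0 < o (algebraMap Λ F₀ r)}
      add_mem' := fun {a b} ha hb => hadd' a b ha hb
      zero_mem' := Or.inl rfl
      smul_mem' := fun x a ha => hsmul' x a ha }
  have hmem : ∀ r : Λ, r ∈ 𝔭 ↔ (r = 0 ∨ 0 < o (algebraMap Λ F₀ r)) := fun r => Iff.rfl
  refine ⟨𝔭, ⟨?_, ?_⟩, hmem⟩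
  · rw [Ideal.ne_top_iff_one, hmem]
    rintro (h1 | h1)
    · exact one_ne_zero h1
    · rw [map_one, val_one o hmul] at h1; exact lt_irrefl _ h1
  · intro a b hab
    rw [hmem] at hab
    rw [hmem, hmem]
    by_cases ha0 : a = 0
    · exact Or.inl (Or.inl ha0)
    by_cases hb0 : b = 0
    · exact Or.inr (Or.inl hb0)
    have hab' : 0 < o (algebraMap Λ F₀ (a * b)) := hab.resolve_left (mul_ne_zero ha0 hb0)
    rw [map_mul, hmul _ _ (algebraMap_ne_zero' ha0) (algebraMap_ne_zero' hb0)] at hab'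
    by_cases hpa : 0 < o (algebraMap Λ F₀ a)
    · exact Or.inl (Or.inr hpa)
    · exact Or.inr (Or.inr (by omega))

theorem val_pow_mul (o : F₀ → ℤ)
    (hmul : ∀ x y : F₀, x ≠ 0 → y ≠ 0 → o (x * y) = o x + o y)
    {ϖ : Λ} (hϖ0 : ϖ ≠ 0) (hϖ : o (algebraMap Λ F₀ ϖ) = 0) (n : ℕ) {r : Λ} (hr : r ≠ 0) :
    o (algebraMap Λ F₀ (ϖ ^ n * r)) = o (algebraMap Λ F₀ r) := by
  induction n with
  | zero => simp
  | succ n ih =>
    have h : ϖ ^ (n + 1) * r = ϖ * (ϖ ^ n * r) := by ring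
    rw [h, map_mul, hmul _ _ (algebraMap_ne_zero' hϖ0)
      (algebraMap_ne_zero' (mul_ne_zero (pow_ne_zero n hϖ0) hr)), hϖ, zero_add, ih]

section Main

variable [IsNoetherianRing Λ] [IsLocalRing Λ]

/-- (V1) Every element of `Λ` of positive valuation is, up to a power of `ϖ`, a multiple of `c`. -/
theorem exists_mul_eq_of_pos (o : F₀ → ℤ)
    (hadd : ∀ x y : F₀, x ≠ 0 → y ≠ 0 → x + y ≠ 0 → min (o x) (o y) ≤ o (x + y))
    (hmul : ∀ x y : F₀, x ≠ 0 → y ≠ 0 → o (x * y) = o x + o y)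
    (hnn : ∀ r : Λ, r ≠ 0 → 0 ≤ o (algebraMap Λ F₀ r))
    {ϖ c : Λ} (hϖm : ϖ ∈ maximalIdeal Λ)
    (hgen : maximalIdeal Λ ≤ satIdeal ϖ c ⊔ Ideal.span {ϖ})
    (hϖ0 : ϖ ≠ 0) (hϖ : o (algebraMap Λ F₀ ϖ) = 0) (hc : 0 < o (algebraMap Λ F₀ c))
    {r : Λ} (hr : 0 < o (algebraMap Λ F₀ r)) :
    ∃ (n : ℕ) (s : Λ), ϖ ^ n * r = c * s := by
  obtain ⟨𝔭, h𝔭, hmem⟩ := exists_valCenter o hadd hmul hnn
  have h1 : 𝔭 = satIdeal ϖ c := eq_satIdeal_of_prime hϖm hgen 𝔭 ((hmem c).mpr (Or.inr hc))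
    (fun h => by
      rcases (hmem ϖ).mp h with h | h
      · exact hϖ0 h
      · rw [hϖ] at h; exact lt_irrefl _ h)
  have h2 : r ∈ satIdeal ϖ c := h1 ▸ (hmem r).mpr (Or.inr hr)
  exact mem_satIdeal'.mp h2

/-- All values of `o` on `Λ ∖ {0}` are multiples of `o c`. -/
theorem val_dvd (o : F₀ → ℤ)
    (hadd : ∀ x y : F₀, x ≠ 0 → y ≠ 0 → x + y ≠ 0 → min (o x) (o y) ≤ o (x + y))
    (hmul : ∀ x y : F₀, x ≠ 0 → y ≠ 0 → o (x * y) = o x + o y)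
    (hnn : ∀ r : Λ, r ≠ 0 → 0 ≤ o (algebraMap Λ F₀ r))
    {ϖ c : Λ} (hϖm : ϖ ∈ maximalIdeal Λ)
    (hgen : maximalIdeal Λ ≤ satIdeal ϖ c ⊔ Ideal.span {ϖ})
    (hϖ0 : ϖ ≠ 0) (hϖ : o (algebraMap Λ F₀ ϖ) = 0) (hc0 : c ≠ 0)
    (hc : 0 < o (algebraMap Λ F₀ c)) :
    ∀ r : Λ, r ≠ 0 → o (algebraMap Λ F₀ c) ∣ o (algebraMap Λ F₀ r) := by
  have key : ∀ N : ℕ, ∀ r : Λ, r ≠ 0 → (o (algebraMap Λ F₀ r)).toNat ≤ N →
      o (algebraMap Λ F₀ c) ∣ o (algebraMap Λ F₀ r) := by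
    intro N
    induction N with
    | zero =>
      intro r hr hN
      have h1 := hnn r hr
      have h2 : o (algebraMap Λ F₀ r) = 0 := by omega
      rw [h2]; exact dvd_zero _
    | succ N ih =>
      intro r hr hN
      have h1 := hnn r hr
      by_cases hpos : 0 < o (algebraMap Λ F₀ r)
      · obtain ⟨n, s, hs⟩ := exists_mul_eq_of_pos o hadd hmul hnn hϖm hgen hϖ0 hϖ hc hpos
        have hs0 : s ≠ 0 := by
          rintro rfl
          rw [mul_zero] at hs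
          exact mul_ne_zero (pow_ne_zero n hϖ0) hr hs
        have h3 : o (algebraMap Λ F₀ r) = o (algebraMap Λ F₀ c) + o (algebraMap Λ F₀ s) := by
          rw [← val_pow_mul o hmul hϖ0 hϖ n hr, hs, map_mul,
            hmul _ _ (algebraMap_ne_zero' hc0) (algebraMap_ne_zero' hs0)]
        have h4 := hnn s hs0
        have h5 := ih s hs0 (by omega)
        rw [h3]; exact dvd_add dvd_rfl h5
      · have h2 : o (algebraMap Λ F₀ r) = 0 := by omega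
        rw [h2]; exact dvd_zero _
  intro r hr
  exact key _ r hr le_rfl

/-- (V2) If `o` takes the value `1` then `o c = 1`: `c` is a uniformiser. -/
theorem val_eq_one (o : F₀ → ℤ)
    (hadd : ∀ x y : F₀, x ≠ 0 → y ≠ 0 → x + y ≠ 0 → min (o x) (o y) ≤ o (x + y))
    (hmul : ∀ x y : F₀, x ≠ 0 → y ≠ 0 → o (x * y) = o x + o y)
    (hnn : ∀ r : Λ, r ≠ 0 → 0 ≤ o (algebraMap Λ F₀ r))
    {ϖ c : Λ} (hϖm : ϖ ∈ maximalIdeal Λ)
    (hgen : maximalIdeal Λ ≤ satIdeal ϖ c ⊔ Ideal.span {ϖ})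
    (hϖ0 : ϖ ≠ 0) (hϖ : o (algebraMap Λ F₀ ϖ) = 0) (hc0 : c ≠ 0)
    (hc : 0 < o (algebraMap Λ F₀ c)) (ht : ∃ t : F₀, t ≠ 0 ∧ o t = 1) :
    o (algebraMap Λ F₀ c) = 1 := by
  obtain ⟨t, ht0, ht1⟩ := ht
  obtain ⟨a, b, hb, rfl⟩ := IsFractionRing.div_surjective (A := Λ) t
  have hb0 : b ≠ 0 := nonZeroDivisors.ne_zero hb
  have ha0 : a ≠ 0 := by
    rintro rfl; rw [map_zero, zero_div] at ht0; exact ht0 rfl
  have hb' : algebraMap Λ F₀ b ≠ 0 := algebraMap_ne_zero' hb0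
  have h1 : o (algebraMap Λ F₀ a) = 1 + o (algebraMap Λ F₀ b) := by
    have h := hmul _ _ ht0 hb'
    rw [div_mul_cancel₀ _ hb', ht1] at h
    exact h
  have hd := val_dvd o hadd hmul hnn hϖm hgen hϖ0 hϖ hc0 hc
  have h2 : o (algebraMap Λ F₀ c) ∣ 1 := by
    have h3 := dvd_sub (hd a ha0) (hd b hb0)
    rw [h1] at h3
    simpa using h3
  exact Int.eq_one_of_dvd_one hc.le h2

/-- (V3) Uniqueness: two additive valuations, both `≥ 0` on `Λ`, `0` at `ϖ` and `1` at `c`, agree on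
`F₀ˣ`. -/
theorem val_unique (o o' : F₀ → ℤ)
    (hadd : ∀ x y : F₀, x ≠ 0 → y ≠ 0 → x + y ≠ 0 → min (o x) (o y) ≤ o (x + y))
    (hmul : ∀ x y : F₀, x ≠ 0 → y ≠ 0 → o (x * y) = o x + o y)
    (hnn : ∀ r : Λ, r ≠ 0 → 0 ≤ o (algebraMap Λ F₀ r))
    (hadd' : ∀ x y : F₀, x ≠ 0 → y ≠ 0 → x + y ≠ 0 → min (o' x) (o' y) ≤ o' (x + y))
    (hmul' : ∀ x y : F₀, x ≠ 0 → y ≠ 0 → o' (x * y) = o' x + o' y)
    (hnn' : ∀ r : Λ, r ≠ 0 → 0 ≤ o' (algebraMap Λ F₀ r))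
    {ϖ c : Λ} (hϖm : ϖ ∈ maximalIdeal Λ)
    (hgen : maximalIdeal Λ ≤ satIdeal ϖ c ⊔ Ideal.span {ϖ})
    (hϖ0 : ϖ ≠ 0) (hc0 : c ≠ 0)
    (hϖ : o (algebraMap Λ F₀ ϖ) = 0) (hc : o (algebraMap Λ F₀ c) = 1)
    (hϖ' : o' (algebraMap Λ F₀ ϖ) = 0) (hc' : o' (algebraMap Λ F₀ c) = 1) :
    ∀ x : F₀, x ≠ 0 → o x = o' x := by
  have key : ∀ N : ℕ, ∀ r : Λ, r ≠ 0 → (o (algebraMap Λ F₀ r)).toNat ≤ N →
      o (algebraMap Λ F₀ r) = o' (algebraMap Λ F₀ r) := by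
    intro N
    induction N with
    | zero =>
      intro r hr hN
      have h1 := hnn r hr
      have h1' := hnn' r hr
      have h2 : o (algebraMap Λ F₀ r) = 0 := by omega
      by_contra hne
      have hpos : 0 < o' (algebraMap Λ F₀ r) := by omega
      obtain ⟨n, s, hs⟩ := exists_mul_eq_of_pos o' hadd' hmul' hnn' hϖm hgen hϖ0 hϖ'
        (by rw [hc']; exact one_pos) hpos
      have hs0 : s ≠ 0 := by
        rintro rfl
        rw [mul_zero] at hs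
        exact mul_ne_zero (pow_ne_zero n hϖ0) hr hs
      have h3 : o (algebraMap Λ F₀ r) = o (algebraMap Λ F₀ c) + o (algebraMap Λ F₀ s) := by
        rw [← val_pow_mul o hmul hϖ0 hϖ n hr, hs, map_mul,
          hmul _ _ (algebraMap_ne_zero' hc0) (algebraMap_ne_zero' hs0)]
      have h4 := hnn s hs0
      omega
    | succ N ih =>
      intro r hr hN
      have h1 := hnn r hr
      have h1' := hnn' r hr
      by_cases hpos : 0 < o (algebraMap Λ F₀ r)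
      · obtain ⟨n, s, hs⟩ := exists_mul_eq_of_pos o hadd hmul hnn hϖm hgen hϖ0 hϖ
          (by rw [hc]; exact one_pos) hpos
        have hs0 : s ≠ 0 := by
          rintro rfl
          rw [mul_zero] at hs
          exact mul_ne_zero (pow_ne_zero n hϖ0) hr hs
        have h3 : o (algebraMap Λ F₀ r) = o (algebraMap Λ F₀ c) + o (algebraMap Λ F₀ s) := by
          rw [← val_pow_mul o hmul hϖ0 hϖ n hr, hs, map_mul,
            hmul _ _ (algebraMap_ne_zero' hc0) (algebraMap_ne_zero' hs0)]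
        have h3' : o' (algebraMap Λ F₀ r) = o' (algebraMap Λ F₀ c) + o' (algebraMap Λ F₀ s) := by
          rw [← val_pow_mul o' hmul' hϖ0 hϖ' n hr, hs, map_mul,
            hmul' _ _ (algebraMap_ne_zero' hc0) (algebraMap_ne_zero' hs0)]
        have h4 := hnn s hs0
        have h5 := ih s hs0 (by omega)
        omega
      · have h2 : o (algebraMap Λ F₀ r) = 0 := by omega
        by_contra hne
        have hpos' : 0 < o' (algebraMap Λ F₀ r) := by omega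
        obtain ⟨n, s, hs⟩ := exists_mul_eq_of_pos o' hadd' hmul' hnn' hϖm hgen hϖ0 hϖ'
          (by rw [hc']; exact one_pos) hpos'
        have hs0 : s ≠ 0 := by
          rintro rfl
          rw [mul_zero] at hs
          exact mul_ne_zero (pow_ne_zero n hϖ0) hr hs
        have h3 : o (algebraMap Λ F₀ r) = o (algebraMap Λ F₀ c) + o (algebraMap Λ F₀ s) := by
          rw [← val_pow_mul o hmul hϖ0 hϖ n hr, hs, map_mul,
            hmul _ _ (algebraMap_ne_zero' hc0) (algebraMap_ne_zero' hs0)]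
        have h4 := hnn s hs0
        omega
  intro x hx
  obtain ⟨a, b, hb, rfl⟩ := IsFractionRing.div_surjective (A := Λ) x
  have hb0 : b ≠ 0 := nonZeroDivisors.ne_zero hb
  have ha0 : a ≠ 0 := by
    rintro rfl; rw [map_zero, zero_div] at hx; exact hx rfl
  have hb' : algebraMap Λ F₀ b ≠ 0 := algebraMap_ne_zero' hb0
  have h1 := hmul _ _ hx hb'
  have h1' := hmul' _ _ hx hb'
  rw [div_mul_cancel₀ _ hb'] at h1 h1'
  have h2 := key _ a ha0 le_rfl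
  have h3 := key _ b hb0 le_rfl
  omega

end Main

end Val

end Fermat.Agent.S34.H61
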