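/-
S34 / Program B', leaf (M3) of `S34/H30/Leaves.lean` (helper61):

  `semiLeaf : H30.SemiLeaf`   — PROVED, unconditional.

The thirteen semi-local fields of `H30.VData.Good` for the concrete model `H30.stdV`: the twelve
two-valuation fields are `H61.vGood_ratForm_of_finrank` (helper10's `H10.vGood_of_dsetup` on the
`K₀`-forms + helper6's two-extension lemma + helper59's degree `q + 1`), the field `inter` is
`H30.stdV_inter` (helper44).
-/
import Fermat.Agent.S34.H30.ChartClose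
import Fermat.Agent.S34.H61.Concrete3
import Fermat.Agent.S34.H59.FDeg

set_option autoImplicit false
set_option linter.style.haveILetI false

open AlgebraicCurve ModularCurve

noncomputable section

namespace Fermat.Agent.S34.H61

open Fermat.Agent.S18 Fermat.Agent.S18.H74 Fermat.Agent.S34.H19 Fermat.Agent.S34.H64
  Fermat.Agent.S34.H30

/-- **Leaf (M3), the semi-local ring of the special fibre: proved.** -/
theorem semiLeaf : SemiLeaf := by
  intro M q _ hqF hqM A hA hAtop O₁ w hTG x₀ hx₀ K₀ _ _ ϖ hϖ j hj σ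
  haveI : NeZero q := ⟨hqF.out.ne_zero⟩
  haveI : IsDiscreteValuationRing ↥(A.comap (algebraMap K₀ Kb)) :=
    Fermat.Agent.S34.H78.isDVR_comap hAtop K₀
  have hxmem : x₀ ∈ ratForm M K₀ := mem_ratForm_of_mem_range M K₀ hx₀.1
  obtain ⟨hS, hS'⟩ := hx₀.2 K₀ hxmem
  have hdeg := Fermat.Agent.S34.H59.finrank_alphaForm M q K₀ hqF.out hqM
  have hG := vGood_ratForm_of_finrank hTG K₀ ϖ hϖ ⟨x₀, hxmem⟩ hS hS' hdeg
  have hI := stdV_inter M q hqM A hA hAtop O₁ w x₀ hx₀ K₀ ϖ j hj σ
  have hjeq : j = alphaForm M q K₀ ⟨x₀, hxmem⟩ := Subtype.ext hj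
  subst hjeq
  obtain ⟨h1, h2, h3, h4, h5, h6, h7, h8, h9, h10, h11, h12, -, -, -, -⟩ := hG
  exact ⟨h1, h2, h3, h4, h5, h6, h7, h8, h9, h10, h11, h12, hI⟩

end Fermat.Agent.S34.H61
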